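import Mathlib
import Fermat.Agent.S44.Core.PoleUnit
import Fermat.Agent.S44.Core.FrameHyp
import Fermat.Agent.S15.G.UnitDiv

/-!
# PROJECT P (S44), brick [FIN] (helper16): the non-node clause at the chart frame

`F : ChartFrame hA hpM`, `Y : NodeHyp F`.  Pole control (`NodeHyp.regular1`, `NodeHyp.regular2`) and
ONE auxiliary function `y` at the place `Q` of the component give: a unit of the Gauss ring without
zero or pole on the fibre of the specialisation map over `Q` has a reduction which is a unit at `Q`.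

* `ord_red₁_eq_zero` : first component, fibre `{P | Y.sp1 P = Q}`, `y ∈ O₁ ∩ O₂` with `V₂ y < 1`,
  `red₁ y` a unit at `Q`, `y` without pole on the fibre;
* `ord_red₂_eq_zero` : second component, fibre `{P | Y.sp2 P = Q}`, `V₁ y < 1`, `red₂ y` a unit at
  `Q`;
* `ord_uBar_eq_zero_of_sp1`, `ord_red₁_uBar_eq_zero` : the modular unit `U = Δ(z)/Δ(M p z)` has
  neither zero nor pole on the fibre over a place `Q` which is not a cusp, hence (given `y`)
  `ord_Q (red₁ U) = 0`: the `u`-clause of the Eisenstein step.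
-/

set_option autoImplicit false
set_option linter.unusedSectionVars false
set_option linter.style.haveILetI false
set_option synthInstance.maxHeartbeats 400000

noncomputable section

namespace Fermat.Agent.S44.Fin.PoleUnitX0

open ModularCurve AlgebraicCurve IsLocalRing
open Fermat.Agent.S34.NodalDefs Fermat.Agent.S34.CoreZX0Datum
open Fermat.Agent.S33.X0.Frame
open Fermat.Agent.S44.Core.FrameHyp Fermat.Agent.S44.Core.TubeCount

local notation "Qbar" => AlgebraicClosure ℚ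

attribute [local instance 2000] Fermat.Agent.S34.EulerX0.algResFk

local instance instNeZeroMul (M q : ℕ) [NeZero M] [NeZero q] : NeZero (M * q) :=
  ⟨Nat.mul_ne_zero (NeZero.ne M) (NeZero.ne q)⟩

variable {p : ℕ} [hp : Fact p.Prime] {M : ℕ} [NeZero M] {A : ValuationSubring Qbar} [NeZero p]
variable {hA : A.LiesOverPrime p} {hpM : ¬ p ∣ M}

set_option maxHeartbeats 1600000 in
/-- **the non-node clause, first component** -/
theorem ord_red₁_eq_zero {F : ChartFrame hA hpM} (Y : NodeHyp F)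
    (Q : Place (ResidueField ↥A) ↥(modularFunctionFieldFullC (ResidueField ↥A) M))
    {y : ↥(modularFunctionFieldBar (M * p))}
    (hy1 : ∃ h : y ∈ F.X.N.R1.O, Q.ord (F.X.N.R1.red ⟨y, h⟩) = 0 ∧ F.X.N.R1.red ⟨y, h⟩ ≠ 0)
    (hy2 : y ∈ F.X.N.R2.O.nonunits)
    (hyt : ∀ P : Place Qbar ↥(modularFunctionFieldBar (M * p)), Y.sp1 P = Q → 0 ≤ P.ord y)
    (u : (F.X.N.R1.O)ˣ)
    (hut : ∀ P : Place Qbar ↥(modularFunctionFieldBar (M * p)), Y.sp1 P = Q →
      P.ord (((u : F.X.N.R1.O)) : ↥(modularFunctionFieldBar (M * p))) = 0) :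
    Q.ord (F.X.N.R1.red (u : F.X.N.R1.O)) = 0 := by
  obtain ⟨hm, hQ, hne⟩ := hy1
  have harch : Fermat.Agent.S34.WeakApprox.Arch F.X.N.R2.O :=
    Fermat.Agent.S44.Core.PoleUnit.arch_branch F.X.N.R2.toBranch
      (Fermat.Agent.S34.ArchComap.arch_of_liesOverPrime hp.out A hA)
  refine Fermat.Agent.S44.Core.PoleUnit.ord_red_eq_zero (R1 := F.X.N.R1.toBranch)
    (R2 := F.X.N.R2.toBranch) (tube := {P | Y.sp1 P = Q}) (Q1 := Q)
    (fun h1 h2 h12 hnp => Y.regular1 h1 h2 h12 Q (fun P hP hsp => hnp P hP hsp))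
    harch (y := y) ⟨hm, rfl⟩ hQ hne hy2 (fun P hP => hyt P hP)
    (f := ((u : F.X.N.R1.O) : ↥(modularFunctionFieldBar (M * p)))) (red_of_mem (u : F.X.N.R1.O).2)
    (Fermat.Agent.S34.NodalDisc.red_unit_ne_zero F.X.N.R1.toBranch u) (fun P hP => hut P hP)

set_option maxHeartbeats 1600000 in
/-- **the non-node clause, second component** -/
theorem ord_red₂_eq_zero {F : ChartFrame hA hpM} (Y : NodeHyp F)
    (Q : Place (ResidueField ↥A) ↥(modularFunctionFieldFullC (ResidueField ↥A) M))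
    {y : ↥(modularFunctionFieldBar (M * p))}
    (hy2 : ∃ h : y ∈ F.X.N.R2.O, Q.ord (F.X.N.R2.red ⟨y, h⟩) = 0 ∧ F.X.N.R2.red ⟨y, h⟩ ≠ 0)
    (hy1 : y ∈ F.X.N.R1.O.nonunits)
    (hyt : ∀ P : Place Qbar ↥(modularFunctionFieldBar (M * p)), Y.sp2 P = Q → 0 ≤ P.ord y)
    (u2 : (F.X.N.R2.O)ˣ)
    (hut : ∀ P : Place Qbar ↥(modularFunctionFieldBar (M * p)), Y.sp2 P = Q →
      P.ord (((u2 : F.X.N.R2.O)) : ↥(modularFunctionFieldBar (M * p))) = 0) :
    Q.ord (F.X.N.R2.red (u2 : F.X.N.R2.O)) = 0 := by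
  obtain ⟨hm, hQ, hne⟩ := hy2
  have harch : Fermat.Agent.S34.WeakApprox.Arch F.X.N.R1.O :=
    Fermat.Agent.S44.Core.PoleUnit.arch_branch F.X.N.R1.toBranch
      (Fermat.Agent.S34.ArchComap.arch_of_liesOverPrime hp.out A hA)
  refine Fermat.Agent.S44.Core.PoleUnit.ord_red_eq_zero (R1 := F.X.N.R2.toBranch)
    (R2 := F.X.N.R1.toBranch) (tube := {P | Y.sp2 P = Q}) (Q1 := Q)
    (fun h2 h1 h21 hnp => Y.regular2 h1 h2 h21.symm Q (fun P hP hsp => hnp P (h21 ▸ hP) hsp))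
    harch (y := y) ⟨hm, rfl⟩ hQ hne hy1 (fun P hP => hyt P hP)
    (f := ((u2 : F.X.N.R2.O) : ↥(modularFunctionFieldBar (M * p)))) (red_of_mem (u2 : F.X.N.R2.O).2)
    (Fermat.Agent.S34.NodalDisc.red_unit_ne_zero F.X.N.R2.toBranch u2) (fun P hP => hut P hP)

/-- the modular unit has neither zero nor pole on the fibre over a place which is not a cusp -/
theorem ord_uBar_eq_zero_of_sp1 {F : ChartFrame hA hpM} (Y : NodeHyp F)
    {Q : Place (ResidueField ↥A) ↥(modularFunctionFieldFullC (ResidueField ↥A) M)}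
    (hQ : 0 ≤ Q.ord (Fermat.Agent.S18.B.FkBasics.jk (ResidueField ↥A) M))
    (P : Place Qbar ↥(modularFunctionFieldBar (M * p))) (hP : Y.sp1 P = Q) :
    P.ord (Fermat.Agent.S34.ModularUnit.uBar (M * p) (dvd_refl (M * p))) = 0 := by
  have hj0 : Fermat.Agent.S24.DegreeAlg.jgen (M * p) ≠ 0 :=
    (Fermat.Agent.S18.A.Instances.isFF_jgen (M * p)).ne_zero
  have hreg : 0 ≤ P.ord (Fermat.Agent.S24.DegreeAlg.jgen (M * p)) := by
    by_contra hneg
    have h1 := Y.sp1_pole P (not_le.mp hneg)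
    rw [hP] at h1
    exact absurd hQ (not_le.mpr h1)
  exact Fermat.Agent.S15.G.UnitDiv.ord_uBar_of_jgen_mem P
    ((Fermat.Agent.S24.Ord.mem_iff P _).mpr ((Fermat.Agent.S24.Ord.ord_nonneg_iff P hj0).mp hreg))

/-- **the `u`-clause**: the first reduction of the modular unit is a unit at every place `Q` of
the component which is not a cusp and carries an auxiliary function `y` -/
theorem ord_red₁_uBar_eq_zero {F : ChartFrame hA hpM} (Y : NodeHyp F)
    {Q : Place (ResidueField ↥A) ↥(modularFunctionFieldFullC (ResidueField ↥A) M)}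
    (hQ : 0 ≤ Q.ord (Fermat.Agent.S18.B.FkBasics.jk (ResidueField ↥A) M))
    {y : ↥(modularFunctionFieldBar (M * p))}
    (hy1 : ∃ h : y ∈ F.X.N.R1.O, Q.ord (F.X.N.R1.red ⟨y, h⟩) = 0 ∧ F.X.N.R1.red ⟨y, h⟩ ≠ 0)
    (hy2 : y ∈ F.X.N.R2.O.nonunits)
    (hyt : ∀ P : Place Qbar ↥(modularFunctionFieldBar (M * p)), Y.sp1 P = Q → 0 ≤ P.ord y)
    (U1 : (F.X.N.R1.O)ˣ)
    (hU : (((U1 : F.X.N.R1.O)) : ↥(modularFunctionFieldBar (M * p))) =
      Fermat.Agent.S34.ModularUnit.uBar (M * p) (dvd_refl (M * p))) :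
    Q.ord (F.X.N.R1.red (U1 : F.X.N.R1.O)) = 0 :=
  ord_red₁_eq_zero Y Q hy1 hy2 hyt U1 (fun P hP => by
    rw [hU]
    exact ord_uBar_eq_zero_of_sp1 Y hQ P hP)

/-- **the `u`-clause in the shape of the Eisenstein step**: given an auxiliary function at every
place which is not a node, the first reduction of the modular unit has order divisible by `p`
(in fact `0`) at every place which is neither a node nor a cusp -/
theorem dvd_ord_red₁_uBar {F : ChartFrame hA hpM} (Y : NodeHyp F)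
    (hy : ∀ Q : Place (ResidueField ↥A) ↥(modularFunctionFieldFullC (ResidueField ↥A) M),
      (∀ e, Q ≠ F.X.N.e1 e) → ∃ y : ↥(modularFunctionFieldBar (M * p)),
        (∃ h : y ∈ F.X.N.R1.O, Q.ord (F.X.N.R1.red ⟨y, h⟩) = 0 ∧ F.X.N.R1.red ⟨y, h⟩ ≠ 0) ∧
        y ∈ F.X.N.R2.O.nonunits ∧
        ∀ P : Place Qbar ↥(modularFunctionFieldBar (M * p)), Y.sp1 P = Q → 0 ≤ P.ord y)
    (U1 : (F.X.N.R1.O)ˣ)
    (hU : (((U1 : F.X.N.R1.O)) : ↥(modularFunctionFieldBar (M * p))) =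
      Fermat.Agent.S34.ModularUnit.uBar (M * p) (dvd_refl (M * p)))
    (Q : Place (ResidueField ↥A) ↥(modularFunctionFieldFullC (ResidueField ↥A) M))
    (hQ : ∀ e, Q ≠ F.X.N.e1 e)
    (hQc : 0 ≤ Q.ord (Fermat.Agent.S18.B.FkBasics.jk (ResidueField ↥A) M)) :
    (p : ℤ) ∣ Q.ord (F.X.N.R1.red (U1 : F.X.N.R1.O)) := by
  obtain ⟨y, hy1, hy2, hyt⟩ := hy Q hQ
  rw [ord_red₁_uBar_eq_zero Y hQc hy1 hy2 hyt U1 hU]
  exact dvd_zero _

end Fermat.Agent.S44.Fin.PoleUnitX0
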