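/-
PROJECT P (S44), brick [MP1] (helper23): THE TWO REDUCTIONS OF THE FINITE PART OF `J₀(M p)[p]` AT
`A ∣ p`, `p ∤ M`.

For a branch `R` (a Gauss valuation ring `O` of `FL` with its reduction `red : O → Fk`) and an
`n`-torsion class `x = [D]`, `n D = div u` with `u` a unit of `O`, the divisor of `red u` on the
component is `n Eb` for a divisor `Eb` as soon as all its orders are divisible by `n`; the class
of `Eb` in `Pic⁰` of the component depends only on `x`.

* abstract part: `HasRed R n x Eb`, `HasRed.degree_eq_zero`, `HasRed.sub_mem_principal`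
  (uniqueness up to principal divisors), `HasRed.zero/add/neg`, `redSub R n : AddSubgroup`,
  `rho R n … : redSub R n →+ Pic0 k Fk`, `rho_eq_zero_iff`, `nsmul_rho`,
  `exists_oneUnit_of_principal` (the kernel lemma: both reductions principal ⇒ Kummer class of
  a `1`-unit of both Gauss rings; weak approximation for two valuation rings + `n`-th roots);
* the instance at `E = ℚ̄(X₀(M p))`: `HasRed1`, `HasRed2`, `finRed F`, `rho1`, `rho2`,
  `oneUnit_le_finRed`, `finRed_le_finPart`, `mem_oneUnit_of_rho_eq_zero`, stability under inertia.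
-/
import Fermat.Agent.S44.Core.NodeOrd
import Fermat.Agent.S34.WeakApproxMul

set_option autoImplicit false
set_option linter.unusedSectionVars false
set_option linter.unusedVariables false
set_option linter.style.haveILetI false
set_option synthInstance.maxHeartbeats 400000

noncomputable section

namespace Fermat.Agent.S44.Fin.Red

open ModularCurve AlgebraicCurve IsLocalRing
open Fermat.Agent.S34.NodalDefs Fermat.Agent.S34.Z1X0 Fermat.Agent.S34.Z1Abstract
open Fermat.Agent.S34.CoreZX0Datum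
open Fermat.Agent.S33.X0.Frame Fermat.Agent.S33.KP.OneUnit
open Fermat.Agent.S44.Core.NodeOrd

local notation "Qbar" => AlgebraicClosure ℚ

/-! ### Abstract part: the reduction of a torsion class along one branch -/

section Abstract

variable {L : Type*} [Field L] {FL : Type*} [Field FL] [Algebra L FL]
variable {k : Type*} [Field k] {Fk : Type*} [Field Fk] [Algebra k Fk]
variable {A' : ValuationSubring L} {π : A' →+* k}

/-- `Eb` is a reduction of the class `x` along the branch `R`: `x = [D]`, `n D = div u` with `u` a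
unit of the Gauss ring, and `div (red u) = n Eb`. -/
def HasRed (R : Branch A' π FL Fk) (n : ℕ) (x : Pic0 L FL) (Eb : Divisor k Fk) : Prop :=
  ∃ (D : Divisor.degZero (K := L) (F := FL)) (u : R.Oˣ), Pic0.mk D = x ∧
    (∀ P : Place L FL, (n : ℤ) * (D : Divisor L FL) P = P.ord (((u : R.O) : FL))) ∧
    ∀ Q : Place k Fk, Q.ord (R.red (u : R.O)) = (n : ℤ) * Eb Q

variable {R : Branch A' π FL Fk} {n : ℕ}

/-- a class with a reduction is killed by `n` -/
theorem HasRed.nsmul_eq_zero {x : Pic0 L FL} {Eb : Divisor k Fk} (h : HasRed R n x Eb) :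
    n • x = 0 := by
  obtain ⟨D, u, rfl, hD, -⟩ := h
  have h1 : n • Pic0.mk D = Pic0.mk (n • D) := rfl
  rw [h1]
  refine Fermat.Agent.S34.KummerZ.mk_eq_zero_of_isDivOf
    (f := ((u : R.O) : FL)) (Fermat.Agent.S34.NodalDisc.coe_unit_ne_zero R u) (fun w => ?_)
  rw [AddSubgroup.coe_nsmul, Finsupp.smul_apply, nsmul_eq_mul, ← hD w]

/-- `n Eb` is the divisor of a function -/
theorem HasRed.exists_ord_eq {x : Pic0 L FL} {Eb : Divisor k Fk} (h : HasRed R n x Eb) :
    ∃ φ : Fk, φ ≠ 0 ∧ ∀ Q : Place k Fk, Q.ord φ = (n : ℤ) * Eb Q := by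
  obtain ⟨D, u, -, -, hE⟩ := h
  exact ⟨R.red (u : R.O), Fermat.Agent.S34.NodalDisc.red_unit_ne_zero R u, hE⟩

/-- a reduction has degree zero -/
theorem HasRed.degree_eq_zero [HasPrincipalDivisors k Fk] (hn : n ≠ 0) {x : Pic0 L FL}
    {Eb : Divisor k Fk} (h : HasRed R n x Eb) : Divisor.degree Eb = 0 := by
  obtain ⟨φ, hφ, hE⟩ := h.exists_ord_eq
  obtain ⟨Dφ, hDφ, hdeg⟩ := HasPrincipalDivisors.exists_divisor (K := k) φ hφ
  have heq : Dφ = (n : ℤ) • Eb := by
    ext Q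
    rw [hDφ Q, hE Q, Finsupp.smul_apply, smul_eq_mul]
  rw [heq, map_zsmul, smul_eq_mul] at hdeg
  rcases mul_eq_zero.mp hdeg with h0 | h0
  · exact absurd (by exact_mod_cast h0) hn
  · exact h0

/-- `n Eb` is principal -/
theorem HasRed.zsmul_mem_principal {x : Pic0 L FL} {Eb : Divisor k Fk} (h : HasRed R n x Eb) :
    (n : ℤ) • Eb ∈ Divisor.principal (K := k) (F := Fk) := by
  obtain ⟨φ, hφ, hE⟩ := h.exists_ord_eq
  exact ⟨φ, hφ, fun Q => by rw [hE Q, Finsupp.smul_apply, smul_eq_mul]⟩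

/-- **uniqueness up to principal divisors**: two reductions of one class differ by the divisor of
a function -/
theorem HasRed.sub_mem_principal
    (hconst : ∀ f : FL, f ≠ 0 → (∀ P : Place L FL, P.ord f = 0) →
      ∃ c : L, c ≠ 0 ∧ f = algebraMap L FL c)
    (hn : n ≠ 0) {x : Pic0 L FL} {Eb Eb' : Divisor k Fk} (h : HasRed R n x Eb)
    (h' : HasRed R n x Eb') : Eb' - Eb ∈ Divisor.principal (K := k) (F := Fk) := by
  classical
  obtain ⟨D, u, hDx, hD, hE⟩ := h
  obtain ⟨D', u', hD'x, hD', hE'⟩ := h'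
  have hmk : Pic0.mk D = Pic0.mk D' := by rw [hDx, hD'x]
  have hmem : -D + D' ∈ (Divisor.principal (K := L) (F := FL)).addSubgroupOf
      (Divisor.degZero (K := L) (F := FL)) := QuotientAddGroup.eq.mp hmk
  rw [AddSubgroup.mem_addSubgroupOf] at hmem
  obtain ⟨g, hg, hdiv⟩ := hmem
  have hdiv' : ∀ P : Place L FL,
      P.ord g = (D' : Divisor L FL) P - (D : Divisor L FL) P := by
    intro P
    rw [← hdiv P, AddSubgroup.coe_add, AddSubgroup.coe_neg, Finsupp.add_apply, Finsupp.neg_apply]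
    ring
  obtain ⟨c, hc, h0, hgh0⟩ := R.exists_const_mul_unit g hg
  have hcF : algebraMap L FL c ≠ 0 := (map_ne_zero _).mpr hc
  have hu0 := Fermat.Agent.S34.NodalDisc.coe_unit_ne_zero R u
  have hu'0 := Fermat.Agent.S34.NodalDisc.coe_unit_ne_zero R u'
  have hh00 := Fermat.Agent.S34.NodalDisc.coe_unit_ne_zero R h0
  have hordh0 : ∀ P : Place L FL, P.ord (((h0 : R.O)) : FL) = P.ord g := by
    intro P
    rw [hgh0, P.ord_mul hcF hh00, Fermat.Agent.S34.KummerZ.ord_algebraMap P hc, zero_add]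
  obtain ⟨w, hw⟩ : ∃ w : R.Oˣ, w = u' * u⁻¹ * (h0 ^ n)⁻¹ := ⟨_, rfl⟩
  have hwcoe : (((w : R.O)) : FL) =
      ((u' : R.O) : FL) * (((u : R.O)) : FL)⁻¹ * ((((h0 : R.O)) : FL) ^ n)⁻¹ := by
    rw [hw, Units.val_mul, Units.val_mul, MulMemClass.coe_mul, MulMemClass.coe_mul,
      Fermat.Agent.S34.NodalDisc.coe_inv_unit, Fermat.Agent.S34.NodalDisc.coe_inv_unit,
      Units.val_pow_eq_pow_val, SubmonoidClass.coe_pow]
  have hw0 := Fermat.Agent.S34.NodalDisc.coe_unit_ne_zero R w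
  have hword : ∀ P : Place L FL, P.ord (((w : R.O)) : FL) = 0 := by
    intro P
    rw [hwcoe, P.ord_mul (mul_ne_zero hu'0 (inv_ne_zero hu0)) (inv_ne_zero (pow_ne_zero _ hh00)),
      P.ord_mul hu'0 (inv_ne_zero hu0), P.ord_inv, P.ord_inv,
      Fermat.Agent.S34.KummerZ.ord_pow, ← hD P, ← hD' P, hordh0 P, hdiv' P]
    ring
  obtain ⟨κ, hκ0, hκ⟩ := hconst _ hw0 hword
  have hκA : κ ∈ A' := R.mem_of_algebraMap_mem κ (by rw [← hκ]; exact (w : R.O).2)
  have hwred : R.red (w : R.O) = algebraMap k Fk (π ⟨κ, hκA⟩) := by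
    rw [← R.red_algebraMap ⟨κ, hκA⟩]
    congr 1
    exact Subtype.ext hκ
  have hu' : u' = w * h0 ^ n * u := by
    rw [hw]
    group
  have hredu' : R.red (u' : R.O) = R.red (w : R.O) * R.red (h0 : R.O) ^ n * R.red (u : R.O) := by
    rw [hu', Units.val_mul, Units.val_mul, Units.val_pow_eq_pow_val, map_mul, map_mul, map_pow]
  have hw_ne := Fermat.Agent.S34.NodalDisc.red_unit_ne_zero R w
  have hh_ne := Fermat.Agent.S34.NodalDisc.red_unit_ne_zero R h0
  have hu_ne := Fermat.Agent.S34.NodalDisc.red_unit_ne_zero R u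
  refine ⟨R.red (h0 : R.O), hh_ne, fun Q => ?_⟩
  have h1 := hE' Q
  rw [hredu', Q.ord_mul (mul_ne_zero hw_ne (pow_ne_zero _ hh_ne)) hu_ne,
    Q.ord_mul hw_ne (pow_ne_zero _ hh_ne), Fermat.Agent.S34.KummerZ.ord_pow, hwred,
    Fermat.Agent.S24.Ord.ord_algebraMap, zero_add, hE Q] at h1
  have hn' : (n : ℤ) ≠ 0 := by exact_mod_cast hn
  have h2 : (n : ℤ) * (Eb' Q - Eb Q) = (n : ℤ) * Q.ord (R.red (h0 : R.O)) := by
    linarith
  rw [Finsupp.sub_apply]
  exact mul_left_cancel₀ hn' h2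

/-- the zero class has reduction `0` -/
theorem HasRed.zero (R : Branch A' π FL Fk) (n : ℕ) : HasRed R n 0 0 := by
  refine ⟨0, 1, rfl, fun P => ?_, fun Q => ?_⟩
  · rw [ord_coe_one R P]
    simp
  · rw [ord_red_one R Q]
    simp

/-- additivity -/
theorem HasRed.add {x y : Pic0 L FL} {Eb Eb' : Divisor k Fk} (hx : HasRed R n x Eb)
    (hy : HasRed R n y Eb') : HasRed R n (x + y) (Eb + Eb') := by
  obtain ⟨D, u, rfl, hD, hE⟩ := hx
  obtain ⟨D', u', rfl, hD', hE'⟩ := hy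
  refine ⟨D + D', u * u', (Pic0.mk_add D D'), fun P => ?_, fun Q => ?_⟩
  · rw [ord_coe_mul R u u' P, ← hD P, ← hD' P, AddSubgroup.coe_add, Finsupp.add_apply, mul_add]
  · rw [ord_red_mul R u u' Q, hE Q, hE' Q, Finsupp.add_apply, mul_add]

/-- negation -/
theorem HasRed.neg {x : Pic0 L FL} {Eb : Divisor k Fk} (hx : HasRed R n x Eb) :
    HasRed R n (-x) (-Eb) := by
  obtain ⟨D, u, rfl, hD, hE⟩ := hx
  refine ⟨-D, u⁻¹, rfl, fun P => ?_, fun Q => ?_⟩
  · rw [ord_coe_inv R u P, ← hD P, AddSubgroup.coe_neg, Finsupp.neg_apply, mul_neg]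
  · rw [ord_red_inv R u Q, hE Q, Finsupp.neg_apply, mul_neg]

variable (R n) in
/-- the classes which have a reduction along `R` -/
def redSub : AddSubgroup (Pic0 L FL) where
  carrier := {x | ∃ Eb : Divisor k Fk, HasRed R n x Eb}
  zero_mem' := ⟨0, HasRed.zero R n⟩
  add_mem' := by
    rintro x y ⟨Eb, hx⟩ ⟨Eb', hy⟩
    exact ⟨Eb + Eb', hx.add hy⟩
  neg_mem' := by
    rintro x ⟨Eb, hx⟩
    exact ⟨-Eb, hx.neg⟩

theorem mem_redSub {x : Pic0 L FL} : x ∈ redSub R n ↔ ∃ Eb : Divisor k Fk, HasRed R n x Eb :=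
  Iff.rfl

/-! ### The reduction map -/

section Rho

variable [HasPrincipalDivisors k Fk]

variable (R n) in
/-- the reduction map, as a function (a choice of reduction; see `rhoFun_eq`) -/
def rhoFun (hn : n ≠ 0) (x : redSub R n) : Pic0 k Fk :=
  Pic0.mk ⟨Classical.choose x.2, (Classical.choose_spec x.2).degree_eq_zero hn⟩

theorem rhoFun_eq
    (hconst : ∀ f : FL, f ≠ 0 → (∀ P : Place L FL, P.ord f = 0) →
      ∃ c : L, c ≠ 0 ∧ f = algebraMap L FL c)
    (hn : n ≠ 0) (x : redSub R n) {Eb : Divisor k Fk} (h : HasRed R n (x : Pic0 L FL) Eb) :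
    rhoFun R n hn x = Pic0.mk ⟨Eb, h.degree_eq_zero hn⟩ := by
  refine QuotientAddGroup.eq.mpr ?_
  rw [AddSubgroup.mem_addSubgroupOf, AddSubgroup.coe_add, AddSubgroup.coe_neg, neg_add_eq_sub]
  exact HasRed.sub_mem_principal hconst hn (Classical.choose_spec x.2) h

variable (R n) in
/-- **the reduction map** of the classes which have a reduction along `R` -/
def rho
    (hconst : ∀ f : FL, f ≠ 0 → (∀ P : Place L FL, P.ord f = 0) →
      ∃ c : L, c ≠ 0 ∧ f = algebraMap L FL c)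
    (hn : n ≠ 0) : redSub R n →+ Pic0 k Fk :=
  AddMonoidHom.mk' (rhoFun R n hn) (fun x y => by
    obtain ⟨Eb, hx⟩ := x.2
    obtain ⟨Eb', hy⟩ := y.2
    have hxy : HasRed R n ((x + y : redSub R n) : Pic0 L FL) (Eb + Eb') := hx.add hy
    rw [rhoFun_eq hconst hn x hx, rhoFun_eq hconst hn y hy, rhoFun_eq hconst hn (x + y) hxy]
    rfl)

theorem rho_eq
    (hconst : ∀ f : FL, f ≠ 0 → (∀ P : Place L FL, P.ord f = 0) →
      ∃ c : L, c ≠ 0 ∧ f = algebraMap L FL c)
    (hn : n ≠ 0) (x : redSub R n) {Eb : Divisor k Fk} (h : HasRed R n (x : Pic0 L FL) Eb) :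
    rho R n hconst hn x = Pic0.mk ⟨Eb, h.degree_eq_zero hn⟩ :=
  rhoFun_eq hconst hn x h

/-- the reduction of a class vanishes iff one (any) of its reduction divisors is principal -/
theorem rho_eq_zero_iff
    (hconst : ∀ f : FL, f ≠ 0 → (∀ P : Place L FL, P.ord f = 0) →
      ∃ c : L, c ≠ 0 ∧ f = algebraMap L FL c)
    (hn : n ≠ 0) (x : redSub R n) {Eb : Divisor k Fk} (h : HasRed R n (x : Pic0 L FL) Eb) :
    rho R n hconst hn x = 0 ↔ Eb ∈ Divisor.principal (K := k) (F := Fk) := by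
  rw [rho_eq hconst hn x h]
  exact (QuotientAddGroup.eq_zero_iff _).trans AddSubgroup.mem_addSubgroupOf

/-- the reduction map takes values in the `n`-torsion -/
theorem nsmul_rho
    (hconst : ∀ f : FL, f ≠ 0 → (∀ P : Place L FL, P.ord f = 0) →
      ∃ c : L, c ≠ 0 ∧ f = algebraMap L FL c)
    (hn : n ≠ 0) (x : redSub R n) : n • rho R n hconst hn x = 0 := by
  obtain ⟨Eb, hx⟩ := x.2
  rw [rho_eq hconst hn x hx]
  obtain ⟨φ, hφ, hE⟩ := hx.exists_ord_eq
  have h1 : n • Pic0.mk (⟨Eb, hx.degree_eq_zero hn⟩ : Divisor.degZero (K := k) (F := Fk)) =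
      Pic0.mk (n • (⟨Eb, hx.degree_eq_zero hn⟩ : Divisor.degZero (K := k) (F := Fk))) := rfl
  rw [h1]
  refine Fermat.Agent.S34.KummerZ.mk_eq_zero_of_isDivOf (f := φ) hφ (fun Q => ?_)
  rw [AddSubgroup.coe_nsmul, Finsupp.smul_apply, nsmul_eq_mul, hE Q]

end Rho

/-! ### The kernel of the two reductions -/

section Kernel

theorem isOneUnit_pow {F : Type*} [Field F] {V : ValuationSubring F} {x : F}
    (hx : IsOneUnit V x) (m : ℕ) : IsOneUnit V (x ^ m) := by
  induction m with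
  | zero => rw [pow_zero]; exact isOneUnit_one V
  | succ m ih => rw [pow_succ]; exact isOneUnit_mul ih hx

/-- an element of the Gauss ring with reduction `1` is a `1`-unit -/
theorem isOneUnit_of_red_eq_one (R : Branch A' π FL Fk) (v : R.O) (hv : R.red v = 1) :
    IsOneUnit R.O (v : FL) := by
  have h0 : R.red (v - 1) = 0 := by rw [map_sub, hv, map_one, sub_self]
  have h1 : ¬ IsUnit (v - 1) := (R.red_eq_zero_iff _).mp h0
  have h2 : (v - 1) ∈ IsLocalRing.maximalIdeal R.O := h1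
  have h3 := (ValuationSubring.coe_mem_nonunits_iff (A := R.O)).mpr h2
  exact h3

/-- if the divisor of the reduction of a Gauss unit is `n` times a principal divisor, the
reduction is an `n`-th power of the reduction of a Gauss unit -/
theorem exists_unit_pow_eq (R : Branch A' π FL Fk)
    (hconstk : ∀ f : Fk, f ≠ 0 → (∀ Q : Place k Fk, Q.ord f = 0) →
      ∃ c : k, f = algebraMap k Fk c)
    (hrootk : ∀ c : k, ∃ d : k, d ^ n = c) (hs : Function.Surjective R.red) (hn : n ≠ 0)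
    (u : R.Oˣ) {Eb : Divisor k Fk}
    (hE : ∀ Q : Place k Fk, Q.ord (R.red (u : R.O)) = (n : ℤ) * Eb Q)
    (hp : Eb ∈ Divisor.principal (K := k) (F := Fk)) :
    ∃ a : R.Oˣ, R.red (u : R.O) = R.red (a : R.O) ^ n := by
  obtain ⟨φ, hφ, hEφ⟩ := hp
  have hu_ne := Fermat.Agent.S34.NodalDisc.red_unit_ne_zero R u
  have hφn : φ ^ n ≠ 0 := pow_ne_zero _ hφ
  have hg0 : R.red (u : R.O) * (φ ^ n)⁻¹ ≠ 0 := mul_ne_zero hu_ne (inv_ne_zero hφn)
  have hgord : ∀ Q : Place k Fk, Q.ord (R.red (u : R.O) * (φ ^ n)⁻¹) = 0 := by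
    intro Q
    rw [Q.ord_mul hu_ne (inv_ne_zero hφn), Q.ord_inv, Fermat.Agent.S34.KummerZ.ord_pow, hE Q,
      hEφ Q]
    ring
  obtain ⟨γ, hγ⟩ := hconstk _ hg0 hgord
  obtain ⟨δ, hδ⟩ := hrootk γ
  have hψ : (algebraMap k Fk δ * φ) ^ n = R.red (u : R.O) := by
    rw [mul_pow, ← map_pow, hδ, ← hγ, mul_assoc, inv_mul_cancel₀ hφn, mul_one]
  have hψ0 : algebraMap k Fk δ * φ ≠ 0 := by
    intro h0
    rw [h0, zero_pow hn] at hψ
    exact hu_ne hψ.symm
  obtain ⟨a0, ha0⟩ := hs (algebraMap k Fk δ * φ)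
  refine ⟨Fermat.Agent.S34.NodalDisc.unitOfRed R a0 (by rw [ha0]; exact hψ0), ?_⟩
  rw [Fermat.Agent.S34.NodalDisc.coe_unitOfRed, ha0, hψ]

/-- **the kernel lemma**: a class both of whose reductions are principal is the Kummer class of a
`1`-unit of both Gauss rings -/
theorem exists_oneUnit_of_principal {F1 : Type*} [Field F1] [Algebra k F1] {F2 : Type*} [Field F2]
    [Algebra k F2] (R1 : Branch A' π FL F1) (R2 : Branch A' π FL F2)
    (hne : R1.O ≠ R2.O) (ha1 : Fermat.Agent.S34.WeakApprox.Arch R1.O)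
    (ha2 : Fermat.Agent.S34.WeakApprox.Arch R2.O) (ht1 : R1.O ≠ ⊤) (ht2 : R2.O ≠ ⊤)
    (hconstL : ∀ f : FL, f ≠ 0 → (∀ P : Place L FL, P.ord f = 0) →
      ∃ c : L, c ≠ 0 ∧ f = algebraMap L FL c)
    (hconst1 : ∀ f : F1, f ≠ 0 → (∀ Q : Place k F1, Q.ord f = 0) →
      ∃ c : k, f = algebraMap k F1 c)
    (hconst2 : ∀ f : F2, f ≠ 0 → (∀ Q : Place k F2, Q.ord f = 0) →
      ∃ c : k, f = algebraMap k F2 c)
    (hrootL : ∀ c : L, ∃ d : L, d ^ n = c) (hrootk : ∀ c : k, ∃ d : k, d ^ n = c)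
    (hs1 : Function.Surjective R1.red) (hs2 : Function.Surjective R2.red) (hn : n ≠ 0)
    {x : Pic0 L FL} {Eb1 : Divisor k F1} {Eb2 : Divisor k F2}
    (h1 : HasRed R1 n x Eb1) (h2 : HasRed R2 n x Eb2)
    (hp1 : Eb1 ∈ Divisor.principal (K := k) (F := F1))
    (hp2 : Eb2 ∈ Divisor.principal (K := k) (F := F2)) :
    ∃ (D : Divisor.degZero (K := L) (F := FL)) (u h : FL), x = Pic0.mk D ∧ u ≠ 0 ∧ h ≠ 0 ∧
      (IsOneUnit R1.O u ∧ IsOneUnit R2.O u) ∧
      ∀ w : Place L FL, n * (D : Divisor L FL) w = w.ord u + n * w.ord h := by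
  classical
  obtain ⟨D, u1, hDx, hD, hE1⟩ := h1
  obtain ⟨D', u2, hD'x, hD', hE2⟩ := h2
  obtain ⟨a1, hra1⟩ := exists_unit_pow_eq R1 hconst1 hrootk hs1 hn u1 hE1 hp1
  obtain ⟨a2, hra2⟩ := exists_unit_pow_eq R2 hconst2 hrootk hs2 hn u2 hE2 hp2
  have hmk : Pic0.mk D = Pic0.mk D' := by rw [hDx, hD'x]
  have hmem : -D + D' ∈ (Divisor.principal (K := L) (F := FL)).addSubgroupOf
      (Divisor.degZero (K := L) (F := FL)) := QuotientAddGroup.eq.mp hmk
  rw [AddSubgroup.mem_addSubgroupOf] at hmem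
  obtain ⟨g, hg, hdiv⟩ := hmem
  have hdiv' : ∀ P : Place L FL,
      P.ord g = (D' : Divisor L FL) P - (D : Divisor L FL) P := by
    intro P
    rw [← hdiv P, AddSubgroup.coe_add, AddSubgroup.coe_neg, Finsupp.add_apply, Finsupp.neg_apply]
    ring
  have hu10 := Fermat.Agent.S34.NodalDisc.coe_unit_ne_zero R1 u1
  have hu20 := Fermat.Agent.S34.NodalDisc.coe_unit_ne_zero R2 u2
  have ha10 := Fermat.Agent.S34.NodalDisc.coe_unit_ne_zero R1 a1
  have ha20 := Fermat.Agent.S34.NodalDisc.coe_unit_ne_zero R2 a2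
  have hgn : g ^ n ≠ 0 := pow_ne_zero _ hg
  -- the two units differ by a constant and an `n`-th power
  have ht0 : ((u2 : R2.O) : FL) * (((u1 : R1.O)) : FL)⁻¹ * (g ^ n)⁻¹ ≠ 0 :=
    mul_ne_zero (mul_ne_zero hu20 (inv_ne_zero hu10)) (inv_ne_zero hgn)
  have htord : ∀ P : Place L FL,
      P.ord (((u2 : R2.O) : FL) * (((u1 : R1.O)) : FL)⁻¹ * (g ^ n)⁻¹) = 0 := by
    intro P
    rw [P.ord_mul (mul_ne_zero hu20 (inv_ne_zero hu10)) (inv_ne_zero hgn),
      P.ord_mul hu20 (inv_ne_zero hu10), P.ord_inv, P.ord_inv,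
      Fermat.Agent.S34.KummerZ.ord_pow, ← hD P, ← hD' P, hdiv' P]
    ring
  obtain ⟨c, hc, hct⟩ := hconstL _ ht0 htord
  obtain ⟨c0, hc0⟩ := hrootL c
  have hc00 : c0 ≠ 0 := by
    intro h0
    rw [h0, zero_pow hn] at hc0
    exact hc hc0.symm
  have hc0F : algebraMap L FL c0 ≠ 0 := (map_ne_zero _).mpr hc00
  have hu2eq : ((u2 : R2.O) : FL) = algebraMap L FL c0 ^ n * g ^ n * (((u1 : R1.O)) : FL) := by
    rw [← map_pow, hc0, ← hct]
    field_simp
  -- weak approximation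
  have hb20 : ((a2 : R2.O) : FL) / (algebraMap L FL c0 * g) ≠ 0 :=
    div_ne_zero ha20 (mul_ne_zero hc0F hg)
  obtain ⟨y, hy0, ⟨hy1, -⟩, ⟨hy2, -⟩⟩ :=
    Fermat.Agent.S34.WeakApproxMul.exists_approx_two ha1 ha2 hne ht1 ht2 ha10 hb20
  have hyn : y ^ n ≠ 0 := pow_ne_zero _ hy0
  have hy1' : IsOneUnit R1.O (y / ((a1 : R1.O) : FL)) := hy1
  have hy2' : IsOneUnit R2.O (y / (((a2 : R2.O) : FL) / (algebraMap L FL c0 * g))) := hy2
  -- the first Gauss ring
  obtain ⟨v1, hv1⟩ : ∃ v1 : R1.Oˣ, v1 = u1 * (a1 ^ n)⁻¹ := ⟨_, rfl⟩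
  have hv1coe : (((v1 : R1.O)) : FL) = ((u1 : R1.O) : FL) * ((((a1 : R1.O)) : FL) ^ n)⁻¹ := by
    rw [hv1, Units.val_mul, MulMemClass.coe_mul, Fermat.Agent.S34.NodalDisc.coe_inv_unit,
      Units.val_pow_eq_pow_val, SubmonoidClass.coe_pow]
  have hv1red : R1.red (v1 : R1.O) = 1 := by
    rw [hv1, Units.val_mul, map_mul, Fermat.Agent.S34.NodalDisc.red_inv_unit,
      Units.val_pow_eq_pow_val, map_pow, hra1]
    exact mul_inv_cancel₀ (pow_ne_zero _ (Fermat.Agent.S34.NodalDisc.red_unit_ne_zero R1 a1))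
  have hone1 : IsOneUnit R1.O (((u1 : R1.O) : FL) * (y ^ n)⁻¹) := by
    have e : ((u1 : R1.O) : FL) * (y ^ n)⁻¹ =
        (((v1 : R1.O)) : FL) * ((y / ((a1 : R1.O) : FL))⁻¹) ^ n := by
      rw [hv1coe, inv_div, div_pow]
      field_simp
    rw [e]
    exact isOneUnit_mul (isOneUnit_of_red_eq_one R1 _ hv1red)
      (isOneUnit_pow (isOneUnit_inv hy1') n)
  -- the second Gauss ring
  obtain ⟨v2, hv2⟩ : ∃ v2 : R2.Oˣ, v2 = u2 * (a2 ^ n)⁻¹ := ⟨_, rfl⟩
  have hv2coe : (((v2 : R2.O)) : FL) = ((u2 : R2.O) : FL) * ((((a2 : R2.O)) : FL) ^ n)⁻¹ := by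
    rw [hv2, Units.val_mul, MulMemClass.coe_mul, Fermat.Agent.S34.NodalDisc.coe_inv_unit,
      Units.val_pow_eq_pow_val, SubmonoidClass.coe_pow]
  have hv2red : R2.red (v2 : R2.O) = 1 := by
    rw [hv2, Units.val_mul, map_mul, Fermat.Agent.S34.NodalDisc.red_inv_unit,
      Units.val_pow_eq_pow_val, map_pow, hra2]
    exact mul_inv_cancel₀ (pow_ne_zero _ (Fermat.Agent.S34.NodalDisc.red_unit_ne_zero R2 a2))
  have hone2 : IsOneUnit R2.O (((u1 : R1.O) : FL) * (y ^ n)⁻¹) := by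
    have e : ((u1 : R1.O) : FL) * (y ^ n)⁻¹ =
        (((v2 : R2.O)) : FL) *
          ((y / (((a2 : R2.O) : FL) / (algebraMap L FL c0 * g)))⁻¹) ^ n := by
      rw [hv2coe, hu2eq, inv_div, div_pow, div_pow, mul_pow]
      field_simp
    rw [e]
    exact isOneUnit_mul (isOneUnit_of_red_eq_one R2 _ hv2red)
      (isOneUnit_pow (isOneUnit_inv hy2') n)
  refine ⟨D, ((u1 : R1.O) : FL) * (y ^ n)⁻¹, y, hDx.symm, mul_ne_zero hu10 (inv_ne_zero hyn), hy0,
    ⟨hone1, hone2⟩, fun w => ?_⟩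
  rw [w.ord_mul hu10 (inv_ne_zero hyn), w.ord_inv, Fermat.Agent.S34.KummerZ.ord_pow, hD w]
  ring

end Kernel

end Abstract

/-! ### The instance at `E = ℚ̄(X₀(M p))` -/

attribute [local instance 2000] Fermat.Agent.S34.EulerX0.algResFk

/-- local instance: principal divisors on `E` -/
local instance instPDBar (N : ℕ) [NeZero N] :
    HasPrincipalDivisors Qbar ↥(modularFunctionFieldBar N) :=
  Fermat.Agent.S18.A.Instances.hasPrincipalDivisors_bar N

/-- local instance: principal divisors on the components -/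
local instance instPDFk (A : ValuationSubring Qbar) (N : ℕ) [NeZero N] :
    HasPrincipalDivisors (ResidueField ↥A) ↥(modularFunctionFieldFullC (ResidueField ↥A) N) :=
  Fermat.Agent.S37.ReductionInputs.hasPrincipalDivisors_Fk A N

/-- local instance: the residue field is algebraically closed -/
local instance instACk (A : ValuationSubring Qbar) : IsAlgClosed (ResidueField ↥A) :=
  Fermat.Agent.S18.ResidueBasics.isAlgClosed_residueField A

variable {p : ℕ} [hp : Fact p.Prime] {M : ℕ} [NeZero M] {A : ValuationSubring Qbar} [NeZero p]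
variable {hA : A.LiesOverPrime p} {hpM : ¬ p ∣ M}

local instance instNeZeroMul : NeZero (M * p) :=
  ⟨Nat.mul_ne_zero (NeZero.ne M) (NeZero.ne p)⟩

/-- `Eb` is a reduction of `x` on the first component -/
def HasRed1 (F : ChartFrame hA hpM) (x : JZero (M * p))
    (Eb : Divisor (ResidueField ↥A) ↥(modularFunctionFieldFullC (ResidueField ↥A) M)) : Prop :=
  HasRed F.X.N.R1.toBranch p x Eb

/-- `Eb` is a reduction of `x` on the second component -/
def HasRed2 (F : ChartFrame hA hpM) (x : JZero (M * p))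
    (Eb : Divisor (ResidueField ↥A) ↥(modularFunctionFieldFullC (ResidueField ↥A) M)) : Prop :=
  HasRed F.X.N.R2.toBranch p x Eb

/-- **the finite part with both reductions**: the classes `[D]`, `p D = div u`, such that the
divisors of the two reductions of `u` are divisible by `p` -/
def finRed (F : ChartFrame hA hpM) : AddSubgroup (JZero (M * p)) :=
  redSub F.X.N.R1.toBranch p ⊓ redSub F.X.N.R2.toBranch p

theorem mem_finRed {F : ChartFrame hA hpM} {x : JZero (M * p)} :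
    x ∈ finRed F ↔ (∃ Eb, HasRed1 F x Eb) ∧ ∃ Eb, HasRed2 F x Eb := Iff.rfl

/-- functions on `E` without zeros and poles are constant -/
theorem constE (f : ↥(modularFunctionFieldBar (M * p))) (hf : f ≠ 0)
    (h : ∀ P : Place Qbar ↥(modularFunctionFieldBar (M * p)), P.ord f = 0) :
    ∃ c : Qbar, c ≠ 0 ∧ f = algebraMap Qbar ↥(modularFunctionFieldBar (M * p)) c :=
  Fermat.Agent.S34.CoreZX0OfPrincipal.exists_const_of_ord_eq_zero (M * p) f hf h

/-- functions on the components without zeros and poles are constant -/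
theorem constk (F : ChartFrame hA hpM)
    (f : ↥(modularFunctionFieldFullC (ResidueField ↥A) M)) (hf : f ≠ 0)
    (h : ∀ Q : Place (ResidueField ↥A) ↥(modularFunctionFieldFullC (ResidueField ↥A) M),
      Q.ord f = 0) :
    ∃ c : ResidueField ↥A,
      f = algebraMap (ResidueField ↥A) ↥(modularFunctionFieldFullC (ResidueField ↥A) M) c := by
  haveI : Nonempty (Place (ResidueField ↥A) ↥(modularFunctionFieldFullC (ResidueField ↥A) M)) := by
    haveI := F.X.Hk.infinite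
    infer_instance
  have hmem : f ∈ riemannRochSpace
      (0 : Divisor (ResidueField ↥A) ↥(modularFunctionFieldFullC (ResidueField ↥A) M)) := by
    rw [Fermat.Agent.S18.A.Riemann.mem_iff_of_ne_zero hf]
    intro w
    rw [h w]
    simp
  exact (Fermat.Agent.S18.A.Riemann.mem_rr_zero_iff F.X.Hk.deg_one).mp hmem

theorem p_ne_zero' : p ≠ 0 := hp.out.ne_zero

/-- **the first reduction map** `finRed → Pic⁰` of the first component -/
def rho1 (F : ChartFrame hA hpM) :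
    finRed F →+ Pic0 (ResidueField ↥A) ↥(modularFunctionFieldFullC (ResidueField ↥A) M) :=
  (rho F.X.N.R1.toBranch p constE p_ne_zero').comp (AddSubgroup.inclusion inf_le_left)

/-- **the second reduction map** `finRed → Pic⁰` of the second component -/
def rho2 (F : ChartFrame hA hpM) :
    finRed F →+ Pic0 (ResidueField ↥A) ↥(modularFunctionFieldFullC (ResidueField ↥A) M) :=
  (rho F.X.N.R2.toBranch p constE p_ne_zero').comp (AddSubgroup.inclusion inf_le_right)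

variable {F : ChartFrame hA hpM}

theorem rho1_eq (x : finRed F)
    {Eb : Divisor (ResidueField ↥A) ↥(modularFunctionFieldFullC (ResidueField ↥A) M)}
    (h : HasRed1 F (x : JZero (M * p)) Eb) :
    rho1 F x = Pic0.mk ⟨Eb, HasRed.degree_eq_zero p_ne_zero' h⟩ :=
  rho_eq constE p_ne_zero' (AddSubgroup.inclusion inf_le_left x) h

theorem rho2_eq (x : finRed F)
    {Eb : Divisor (ResidueField ↥A) ↥(modularFunctionFieldFullC (ResidueField ↥A) M)}
    (h : HasRed2 F (x : JZero (M * p)) Eb) :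
    rho2 F x = Pic0.mk ⟨Eb, HasRed.degree_eq_zero p_ne_zero' h⟩ :=
  rho_eq constE p_ne_zero' (AddSubgroup.inclusion inf_le_right x) h

theorem rho1_eq_zero_iff (x : finRed F)
    {Eb : Divisor (ResidueField ↥A) ↥(modularFunctionFieldFullC (ResidueField ↥A) M)}
    (h : HasRed1 F (x : JZero (M * p)) Eb) :
    rho1 F x = 0 ↔ Eb ∈ Divisor.principal (K := ResidueField ↥A)
      (F := ↥(modularFunctionFieldFullC (ResidueField ↥A) M)) :=
  rho_eq_zero_iff constE p_ne_zero' (AddSubgroup.inclusion inf_le_left x) h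

theorem rho2_eq_zero_iff (x : finRed F)
    {Eb : Divisor (ResidueField ↥A) ↥(modularFunctionFieldFullC (ResidueField ↥A) M)}
    (h : HasRed2 F (x : JZero (M * p)) Eb) :
    rho2 F x = 0 ↔ Eb ∈ Divisor.principal (K := ResidueField ↥A)
      (F := ↥(modularFunctionFieldFullC (ResidueField ↥A) M)) :=
  rho_eq_zero_iff constE p_ne_zero' (AddSubgroup.inclusion inf_le_right x) h

/-- the reductions are killed by `p` -/
theorem nsmul_rho1 (x : finRed F) : p • rho1 F x = 0 :=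
  nsmul_rho constE p_ne_zero' (AddSubgroup.inclusion inf_le_left x)

theorem nsmul_rho2 (x : finRed F) : p • rho2 F x = 0 :=
  nsmul_rho constE p_ne_zero' (AddSubgroup.inclusion inf_le_right x)

/-- the finite part is killed by `p` -/
theorem nsmul_eq_zero_of_mem_finRed {x : JZero (M * p)} (hx : x ∈ finRed F) : p • x = 0 := by
  obtain ⟨⟨Eb, h⟩, -⟩ := hx
  exact h.nsmul_eq_zero

/-- the finite part with both reductions lies in the finite part of the node orders -/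
theorem finRed_le_finPart (F : ChartFrame hA hpM) : finRed F ≤ finPart F := by
  rintro x ⟨⟨Eb, D, u, hDx, hD, hE⟩, -⟩
  refine ⟨D, u, hDx, hD, fun e => ?_⟩
  rw [hE (F.X.N.e1 e)]
  push_cast
  rw [ZMod.natCast_self, zero_mul]
  rfl

/-- the `1`-unit classes of level `p` lie in the finite part, with both reductions `0` -/
theorem hasRed_of_mem_oneUnit {y : JZero (M * p)} (hy : y ∈ oneUnit hA hpM p) :
    HasRed1 F y 0 ∧ HasRed2 F y 0 := by
  obtain ⟨D, u, rfl, hu, h1, h2, hD⟩ := exists_strict_of_mem_oneUnit hA hpM hy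
  have h1' : IsOneUnit F.X.N.R1.O u := by rw [F.X.O1_eq]; exact h1
  have h2' : IsOneUnit F.X.N.R2.O u := by rw [F.X.O2_eq]; exact h2
  obtain ⟨v1, hv1, hv1red⟩ := exists_unit_of_isOneUnit F.X.N.R1.toBranch h1'
  obtain ⟨v2, hv2, hv2red⟩ := exists_unit_of_isOneUnit F.X.N.R2.toBranch h2'
  refine ⟨⟨D, v1, rfl, fun P => ?_, fun Q => ?_⟩, ⟨D, v2, rfl, fun P => ?_, fun Q => ?_⟩⟩
  · rw [hv1]
    exact (hD P).symm
  · rw [hv1red, Place.ord_one]
    simp
  · rw [hv2]
    exact (hD P).symm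
  · rw [hv2red, Place.ord_one]
    simp

theorem oneUnit_le_finRed (F : ChartFrame hA hpM) : oneUnit hA hpM p ≤ finRed F := fun y hy =>
  ⟨⟨0, (hasRed_of_mem_oneUnit hy).1⟩, ⟨0, (hasRed_of_mem_oneUnit hy).2⟩⟩

/-- the `1`-unit classes have trivial reductions -/
theorem rho1_eq_zero_of_mem_oneUnit (x : finRed F) (hx : (x : JZero (M * p)) ∈ oneUnit hA hpM p) :
    rho1 F x = 0 :=
  (rho1_eq_zero_iff x (hasRed_of_mem_oneUnit hx).1).mpr (zero_mem _)

theorem rho2_eq_zero_of_mem_oneUnit (x : finRed F) (hx : (x : JZero (M * p)) ∈ oneUnit hA hpM p) :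
    rho2 F x = 0 :=
  (rho2_eq_zero_iff x (hasRed_of_mem_oneUnit hx).2).mpr (zero_mem _)

/-- **the kernel of the two reductions is the group of `1`-unit classes** (the reductions of the
Gauss rings being onto the function fields of the components) -/
theorem mem_oneUnit_of_rho_eq_zero (hs1 : Function.Surjective F.X.N.R1.red)
    (hs2 : Function.Surjective F.X.N.R2.red) (x : finRed F) (h1 : rho1 F x = 0)
    (h2 : rho2 F x = 0) : (x : JZero (M * p)) ∈ oneUnit hA hpM p := by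
  obtain ⟨⟨Eb1, hx1⟩, ⟨Eb2, hx2⟩⟩ := x.2
  have hp1 := (rho1_eq_zero_iff x hx1).mp h1
  have hp2 := (rho2_eq_zero_iff x hx2).mp h2
  have hpos : 0 < p := hp.out.pos
  have hne : F.X.N.R1.O ≠ F.X.N.R2.O := by
    rw [F.X.O1_eq, F.X.O2_eq]
    exact V1X0_ne_V2X0 hA hpM
  have ha1 : Fermat.Agent.S34.WeakApprox.Arch F.X.N.R1.O := by
    rw [F.X.O1_eq]
    exact arch_VX0 hA hpM 0
  have ha2 : Fermat.Agent.S34.WeakApprox.Arch F.X.N.R2.O := by
    rw [F.X.O2_eq]
    exact arch_VX0 hA hpM 1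
  have ht1 : F.X.N.R1.O ≠ ⊤ := by
    rw [F.X.O1_eq]
    exact V_ne_top hA hpM (comap_VX0 hA hpM 0)
  have ht2 : F.X.N.R2.O ≠ ⊤ := by
    rw [F.X.O2_eq]
    exact V_ne_top hA hpM (comap_VX0 hA hpM 1)
  obtain ⟨D, u, h, hxD, hu, hh, ⟨ho1, ho2⟩, hD⟩ :=
    exists_oneUnit_of_principal F.X.N.R1.toBranch F.X.N.R2.toBranch hne ha1 ha2 ht1 ht2 constE
      (constk F) (constk F) (fun c => IsAlgClosed.exists_pow_nat_eq c hpos)
      (fun c => IsAlgClosed.exists_pow_nat_eq c hpos) hs1 hs2 p_ne_zero' hx1 hx2 hp1 hp2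
  rw [F.X.O1_eq] at ho1
  rw [F.X.O2_eq] at ho2
  exact (mem_oneUnit hA hpM p _).mpr ⟨D, u, h, hxD, hu, hh, ⟨ho1, ho2⟩, hD⟩

/-! ### Invariance under the inertia group -/

/-- the first reduction does not change under the inertia group -/
theorem HasRed1.smul {σ : Qbar ≃ₐ[ℚ] Qbar} (hσ : σ ∈ A.inertiaSubgroupIn ℚ)
    {x : JZero (M * p)}
    {Eb : Divisor (ResidueField ↥A) ↥(modularFunctionFieldFullC (ResidueField ↥A) M)}
    (hx : HasRed1 F x Eb) : HasRed1 F (σ • x) Eb := by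
  obtain ⟨D, u, rfl, hD, hE⟩ := hx
  obtain ⟨g, hg⟩ : ∃ g : SemilinearAut Qbar ↥(modularFunctionFieldBar (M * p)),
      g = arithmeticGalois (modularFunctionFieldFull (M * p)) σ := ⟨_, rfl⟩
  have hm1 : ∀ y : ↥(modularFunctionFieldBar (M * p)), y ∈ F.X.N.R1.O → g • y ∈ F.X.N.R1.O := by
    intro y hy
    rw [F.X.O1_eq] at hy ⊢
    rw [hg]
    exact (smul_mem_V1X0_iff hA hpM hσ y).mpr hy
  have hs1 : ∀ y : ↥(modularFunctionFieldBar (M * p)), y ∈ F.X.N.R1.O →
      g • y - y ∈ F.X.N.R1.O.nonunits := by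
    intro y hy
    rw [F.X.O1_eq] at hy ⊢
    rw [hg]
    exact smul_sub_mem_nonunits₁ hA hpM hσ hy
  obtain ⟨v, hv, hvred⟩ := exists_unit_smul F.X.N.R1.toBranch g hm1 hs1 u
  refine ⟨SemilinearAut.degZeroSMulHom g D, v, ?_, fun P => ?_, fun Q => ?_⟩
  · rw [galois_smul_pic0_def, ← hg, SemilinearAut.pic0_smul_mk]
  · have h1 := hD (g⁻¹ • P)
    rw [hv, Fermat.Agent.S34.KummerZ.ord_smul_eq g P, ← h1, SemilinearAut.coe_degZeroSMulHom,
      SemilinearAut.divisor_smul_apply]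
  · rw [hvred]
    exact hE Q

/-- the second reduction does not change under the inertia group -/
theorem HasRed2.smul {σ : Qbar ≃ₐ[ℚ] Qbar} (hσ : σ ∈ A.inertiaSubgroupIn ℚ)
    {x : JZero (M * p)}
    {Eb : Divisor (ResidueField ↥A) ↥(modularFunctionFieldFullC (ResidueField ↥A) M)}
    (hx : HasRed2 F x Eb) : HasRed2 F (σ • x) Eb := by
  obtain ⟨D, u, rfl, hD, hE⟩ := hx
  obtain ⟨g, hg⟩ : ∃ g : SemilinearAut Qbar ↥(modularFunctionFieldBar (M * p)),
      g = arithmeticGalois (modularFunctionFieldFull (M * p)) σ := ⟨_, rfl⟩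
  have hm1 : ∀ y : ↥(modularFunctionFieldBar (M * p)), y ∈ F.X.N.R2.O → g • y ∈ F.X.N.R2.O := by
    intro y hy
    rw [F.X.O2_eq] at hy ⊢
    rw [hg]
    exact (smul_mem_V2X0_iff hA hpM hσ y).mpr hy
  have hs1 : ∀ y : ↥(modularFunctionFieldBar (M * p)), y ∈ F.X.N.R2.O →
      g • y - y ∈ F.X.N.R2.O.nonunits := by
    intro y hy
    rw [F.X.O2_eq] at hy ⊢
    rw [hg]
    exact smul_sub_mem_nonunits₂ hA hpM hσ hy
  obtain ⟨v, hv, hvred⟩ := exists_unit_smul F.X.N.R2.toBranch g hm1 hs1 u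
  refine ⟨SemilinearAut.degZeroSMulHom g D, v, ?_, fun P => ?_, fun Q => ?_⟩
  · rw [galois_smul_pic0_def, ← hg, SemilinearAut.pic0_smul_mk]
  · have h1 := hD (g⁻¹ • P)
    rw [hv, Fermat.Agent.S34.KummerZ.ord_smul_eq g P, ← h1, SemilinearAut.coe_degZeroSMulHom,
      SemilinearAut.divisor_smul_apply]
  · rw [hvred]
    exact hE Q

/-- the finite part is stable under the inertia group -/
theorem smul_mem_finRed {σ : Qbar ≃ₐ[ℚ] Qbar} (hσ : σ ∈ A.inertiaSubgroupIn ℚ)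
    {x : JZero (M * p)} (hx : x ∈ finRed F) : σ • x ∈ finRed F := by
  obtain ⟨⟨Eb1, h1⟩, ⟨Eb2, h2⟩⟩ := hx
  exact ⟨⟨Eb1, HasRed1.smul hσ h1⟩, ⟨Eb2, HasRed2.smul hσ h2⟩⟩

/-- the first reduction map is invariant under the inertia group -/
theorem rho1_smul {σ : Qbar ≃ₐ[ℚ] Qbar} (hσ : σ ∈ A.inertiaSubgroupIn ℚ) (x : finRed F) :
    rho1 F ⟨σ • (x : JZero (M * p)), smul_mem_finRed hσ x.2⟩ = rho1 F x := by
  obtain ⟨⟨Eb1, h1⟩, -⟩ := x.2
  rw [rho1_eq x h1, rho1_eq ⟨σ • (x : JZero (M * p)), smul_mem_finRed hσ x.2⟩ (HasRed1.smul hσ h1)]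

/-- the second reduction map is invariant under the inertia group -/
theorem rho2_smul {σ : Qbar ≃ₐ[ℚ] Qbar} (hσ : σ ∈ A.inertiaSubgroupIn ℚ) (x : finRed F) :
    rho2 F ⟨σ • (x : JZero (M * p)), smul_mem_finRed hσ x.2⟩ = rho2 F x := by
  obtain ⟨-, ⟨Eb2, h2⟩⟩ := x.2
  rw [rho2_eq x h2, rho2_eq ⟨σ • (x : JZero (M * p)), smul_mem_finRed hσ x.2⟩ (HasRed2.smul hσ h2)]

end Fermat.Agent.S44.Fin.Red
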