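/-
PROJECT P (S44), brick [FIN] (helper23): THE NON-NODE CLAUSE AT THE CHART FRAME, AND
`finPart F ≤ finRed F`.

`F : ChartFrame hA hpM`, `Y : NodeHyp F`, `hLC : HasLocalCount F Y`.  For EVERY representative
`x = [D]`, `p D = div u`, `u` a unit of the first Gauss ring, of a `p`-torsion class of
`J₀(M p)`, the order of `red₁ u` at every place of the component which is not over a node is a
multiple of `p`, and the same holds on the second component for `u / const`
(`Core/DimCount.dvd_ord_red_unit`: a dimension count, no moving lemma).  Consequences: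

* `exists_offRep` : a representative with the non-node clause (every place, cusps included);
* `mem_finRed_of_hasNodeOrd_zero` : a class with node orders `0` has both reductions.
-/
import Fermat.Agent.S44.Core.DimCount
import Fermat.Agent.S44.Fin.Red
import Fermat.Agent.S44.X0.FrameAll
import Fermat.Agent.S33.X0.OrthoAdapter

set_option autoImplicit false
set_option linter.unusedSectionVars false
set_option linter.unusedVariables false
set_option linter.style.haveILetI false
set_option synthInstance.maxHeartbeats 400000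

noncomputable section

namespace Fermat.Agent.S44.Fin.Hnn

open ModularCurve AlgebraicCurve IsLocalRing
open Fermat.Agent.S34.NodalDefs Fermat.Agent.S34.Z1X0 Fermat.Agent.S34.Z1Abstract
open Fermat.Agent.S34.CoreZX0Datum
open Fermat.Agent.S33.X0.Frame Fermat.Agent.S33.Nodal.Glued
open Fermat.Agent.S44.Core.NodeOrd Fermat.Agent.S44.Core.FrameHyp Fermat.Agent.S44.Core.TubeCount
open Fermat.Agent.S44.X0.FrameAll Fermat.Agent.S44.Fin.Red

local notation "Qbar" => AlgebraicClosure ℚ

attribute [local instance 2000] Fermat.Agent.S34.EulerX0.algResFk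

/-- local instance: principal divisors on `E` -/
local instance instPDBar (N : ℕ) [NeZero N] :
    HasPrincipalDivisors Qbar ↥(modularFunctionFieldBar N) :=
  Fermat.Agent.S18.A.Instances.hasPrincipalDivisors_bar N

/-- local instance: principal divisors on the components -/
local instance instPDFk (A : ValuationSubring Qbar) (N : ℕ) [NeZero N] :
    HasPrincipalDivisors (ResidueField ↥A) ↥(modularFunctionFieldFullC (ResidueField ↥A) N) :=
  Fermat.Agent.S37.ReductionInputs.hasPrincipalDivisors_Fk A N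

variable {p : ℕ} [hp : Fact p.Prime] {M : ℕ} [NeZero M] {A : ValuationSubring Qbar} [NeZero p]
variable {hA : A.LiesOverPrime p} {hpM : ¬ p ∣ M}

local instance instNeZeroMul : NeZero (M * p) :=
  ⟨Nat.mul_ne_zero (NeZero.ne M) (NeZero.ne p)⟩

variable {F : ChartFrame hA hpM}

set_option maxHeartbeats 1600000 in
/-- the local count at the nodes, for two-sided units whose divisor is a multiple of `p` -/
theorem dvd_node_sum (Y : NodeHyp F) (hLC : HasLocalCount F Y) (v : O12 F.X.N)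
    (D' : Divisor Qbar ↥(modularFunctionFieldBar (M * p)))
    (hr1 : F.X.N.R1.red (incl1 F.X.N v) ≠ 0) (hr2 : F.X.N.R2.red (incl2 F.X.N v) ≠ 0)
    (hD' : ∀ P : Place Qbar ↥(modularFunctionFieldBar (M * p)),
      (p : ℤ) * D' P = P.ord ((v : O12 F.X.N) : ↥(modularFunctionFieldBar (M * p))))
    (e : {b // b ∈ F.X.S}) :
    (p : ℤ) ∣ (F.X.N.e1 e).ord (F.X.N.R1.red (incl1 F.X.N v)) +
      (F.X.N.e2 e).ord (F.X.N.R2.red (incl2 F.X.N v)) := by
  classical
  obtain ⟨T, hT⟩ : ∃ T : Finset (Place Qbar ↥(modularFunctionFieldBar (M * p))),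
      T = D'.support.filter (· ∈ Y.tube e) := ⟨_, rfl⟩
  have h := hLC.node e ((v : O12 F.X.N) : ↥(modularFunctionFieldBar (M * p)))
    (F.X.N.R1.red (incl1 F.X.N v)) (F.X.N.R2.red (incl2 F.X.N v))
    ⟨(incl1 F.X.N v).2, rfl⟩ ⟨(incl2 F.X.N v).2, rfl⟩ hr1 hr2 T
    (fun P hP => (Finset.mem_filter.mp (hT ▸ hP)).2)
    (fun P hP hne => hT ▸ Finset.mem_filter.mpr ⟨Finsupp.mem_support_iff.mpr (fun h0 => hne (by
      rw [← hD' P, h0, mul_zero])), hP⟩)
  rw [← h]
  refine Finset.dvd_sum fun P _ => ?_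
  rw [← hD' P]
  exact dvd_mul_right _ _

set_option maxHeartbeats 1600000 in
/-- **the non-node clause at the chart frame**, for EVERY representative of a `p`-torsion class:
the orders of `red₁ u` off the nodes are multiples of `p`; `u = c * u2` with `u2` a unit of the
second Gauss ring with the same property; at the nodes divisibility passes from the first branch
to the second. -/
theorem dvd_ord_red_frame (Y : NodeHyp F) (hLC : HasLocalCount F Y)
    (D : Divisor Qbar ↥(modularFunctionFieldBar (M * p))) (hD0 : Divisor.degree D = 0)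
    (u : (F.X.N.R1.O)ˣ)
    (hD : ∀ P : Place Qbar ↥(modularFunctionFieldBar (M * p)),
      (p : ℤ) * D P = P.ord (((u : F.X.N.R1.O)) : ↥(modularFunctionFieldBar (M * p)))) :
    (∀ Q : Place (ResidueField ↥A) ↥(modularFunctionFieldFullC (ResidueField ↥A) M),
        (∀ e, Q ≠ F.X.N.e1 e) → (p : ℤ) ∣ Q.ord (F.X.N.R1.red (u : F.X.N.R1.O))) ∧
      ∃ (u2 : (F.X.N.R2.O)ˣ) (c : Qbar), c ≠ 0 ∧
        (((u : F.X.N.R1.O)) : ↥(modularFunctionFieldBar (M * p))) =
          algebraMap Qbar ↥(modularFunctionFieldBar (M * p)) c *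
            (((u2 : F.X.N.R2.O)) : ↥(modularFunctionFieldBar (M * p))) ∧
        (∀ Q : Place (ResidueField ↥A) ↥(modularFunctionFieldFullC (ResidueField ↥A) M),
          (∀ e, Q ≠ F.X.N.e2 e) → (p : ℤ) ∣ Q.ord (F.X.N.R2.red (u2 : F.X.N.R2.O))) ∧
        ∀ e, (p : ℤ) ∣ (F.X.N.e1 e).ord (F.X.N.R1.red (u : F.X.N.R1.O)) →
          (p : ℤ) ∣ (F.X.N.e2 e).ord (F.X.N.R2.red (u2 : F.X.N.R2.O)) := by
  haveI : CharP (ResidueField ↥A) p := Fermat.Agent.S18.ResidueBasics.charP_residueField A hA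
  haveI := F.X.Hk.infinite
  have hpos : 0 < p := hp.out.pos
  obtain ⟨Q2, hQ2⟩ := F.finite_Bad2.exists_notMem
  obtain ⟨c2, P2, -, -, hP2, -, -⟩ := F.exists_fixed_param_2 Q2 hQ2
  have hne : F.X.N.R1.O ≠ F.X.N.R2.O := by
    rw [F.X.O1_eq, F.X.O2_eq]
    exact V1X0_ne_V2X0 hA hpM
  have ha1 : Fermat.Agent.S34.WeakApprox.Arch F.X.N.R1.O := by
    rw [F.X.O1_eq]
    exact arch_VX0 hA hpM 0
  have ha2 : Fermat.Agent.S34.WeakApprox.Arch F.X.N.R2.O := by
    rw [F.X.O2_eq]
    exact arch_VX0 hA hpM 1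
  have ht1 : F.X.N.R1.O ≠ ⊤ := by
    rw [F.X.O1_eq]
    exact V_ne_top hA hpM (comap_VX0 hA hpM 0)
  have ht2 : F.X.N.R2.O ≠ ⊤ := by
    rw [F.X.O2_eq]
    exact V_ne_top hA hpM (comap_VX0 hA hpM 1)
  have he1 : Function.Injective F.X.N.e1 := by
    intro e e' h
    rw [Y.e1_eq e, Y.e1_eq e'] at h
    exact Subtype.ext (Y.Fr.injective h)
  have hg : (F.X.g : ℤ) + 1 = F.X.gk + F.X.gk + Fintype.card {b // b ∈ F.X.S} := by
    rw [Fintype.card_coe]
    exact F.genus_eq
  exact Fermat.Agent.S44.Core.DimCount.dvd_ord_red_unit F.X.N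
    (Fermat.Agent.S33.X0.OrthoAdapter.orthoPair F.X) F.X.HL F.X.Hk F.X.Hk hg he1 F.X.e2_injective
    F.X.hQstar F.X.hstar (F.good_of_not_mem_Bad2 hQ2) hP2 hne ha1 ha2 ht1 ht2
    (fun c => IsAlgClosed.exists_pow_nat_eq c hpos)
    (fun v D' h1 h2 hD' e => dvd_node_sum Y hLC v D' h1 h2 hD' e) D hD0 u hD

set_option maxHeartbeats 1600000 in
/-- **(d1)** every `p`-torsion class has a representative `x = [D]`, `p D = div u`, `u` a unit of
the first Gauss ring, such that the order of `red₁ u` at every place which is not over a node is a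
multiple of `p` (in fact every representative has this property: `dvd_ord_red_frame`). -/
theorem exists_offRep (Y : NodeHyp F) (hLC : HasLocalCount F Y) (x : JZero (M * p))
    (hx : p • x = 0) :
    ∃ (D : Divisor.degZero (K := Qbar) (F := ↥(modularFunctionFieldBar (M * p))))
      (u : (F.X.N.R1.O)ˣ), Pic0.mk D = x ∧
      (∀ P : Place Qbar ↥(modularFunctionFieldBar (M * p)),
        (p : ℤ) * (D : Divisor Qbar ↥(modularFunctionFieldBar (M * p))) P =
          P.ord (((u : F.X.N.R1.O)) : ↥(modularFunctionFieldBar (M * p)))) ∧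
      ∀ Q : Place (ResidueField ↥A) ↥(modularFunctionFieldFullC (ResidueField ↥A) M),
        (∀ e, Q ≠ F.X.N.e1 e) → (p : ℤ) ∣ Q.ord (F.X.N.R1.red (u : F.X.N.R1.O)) := by
  obtain ⟨a, D, u, hDx, hD, -⟩ := exists_hasNodeOrd F hx
  exact ⟨D, u, hDx, hD,
    (dvd_ord_red_frame Y hLC (D : Divisor Qbar ↥(modularFunctionFieldBar (M * p)))
      (Divisor.mem_degZero.mp D.2) u hD).1⟩

set_option maxHeartbeats 1600000 in
/-- **(d2)** a class with node orders `0` has both reductions: `finPart F ≤ finRed F` -/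
theorem mem_finRed_of_hasNodeOrd_zero (Y : NodeHyp F) (hLC : HasLocalCount F Y)
    {x : JZero (M * p)} (hx : HasNodeOrd F x 0) : x ∈ finRed F := by
  classical
  obtain ⟨D, u, hDx, hD, ha⟩ := hx
  have hnode1 : ∀ e, (p : ℤ) ∣ (F.X.N.e1 e).ord (F.X.N.R1.red (u : F.X.N.R1.O)) := by
    intro e
    have h := ha e
    rw [Pi.zero_apply] at h
    exact (ZMod.intCast_zmod_eq_zero_iff_dvd _ p).mp h.symm
  obtain ⟨hoff1, u2, c, hc, hu, hoff2, hnode12⟩ :=
    dvd_ord_red_frame Y hLC (D : Divisor Qbar ↥(modularFunctionFieldBar (M * p)))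
      (Divisor.mem_degZero.mp D.2) u hD
  have hall1 : ∀ Q : Place (ResidueField ↥A) ↥(modularFunctionFieldFullC (ResidueField ↥A) M),
      (p : ℤ) ∣ Q.ord (F.X.N.R1.red (u : F.X.N.R1.O)) := by
    intro Q
    by_cases h : ∃ e, Q = F.X.N.e1 e
    · obtain ⟨e, rfl⟩ := h
      exact hnode1 e
    · exact hoff1 Q fun e he => h ⟨e, he⟩
  have hall2 : ∀ Q : Place (ResidueField ↥A) ↥(modularFunctionFieldFullC (ResidueField ↥A) M),
      (p : ℤ) ∣ Q.ord (F.X.N.R2.red (u2 : F.X.N.R2.O)) := by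
    intro Q
    by_cases h : ∃ e, Q = F.X.N.e2 e
    · obtain ⟨e, rfl⟩ := h
      exact hnode12 e (hnode1 e)
    · exact hoff2 Q fun e he => h ⟨e, he⟩
  have hD2 : ∀ P : Place Qbar ↥(modularFunctionFieldBar (M * p)),
      (p : ℤ) * (D : Divisor Qbar ↥(modularFunctionFieldBar (M * p))) P =
        P.ord (((u2 : F.X.N.R2.O)) : ↥(modularFunctionFieldBar (M * p))) := by
    intro P
    rw [hD P, hu, Fermat.Agent.S18.CoreOrd.ord_const_mul P hc]
  obtain ⟨Δ1, hΔ1, -⟩ := HasPrincipalDivisors.exists_divisor (K := ResidueField ↥A)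
    (F.X.N.R1.red (u : F.X.N.R1.O))
    (Fermat.Agent.S34.NodalDisc.red_unit_ne_zero F.X.N.R1.toBranch u)
  obtain ⟨Δ2, hΔ2, -⟩ := HasPrincipalDivisors.exists_divisor (K := ResidueField ↥A)
    (F.X.N.R2.red (u2 : F.X.N.R2.O))
    (Fermat.Agent.S34.NodalDisc.red_unit_ne_zero F.X.N.R2.toBranch u2)
  refine mem_finRed.mpr ⟨⟨Fermat.Agent.S44.Core.DimCount.fl p Δ1, D, u, hDx, hD, fun Q => ?_⟩,
    ⟨Fermat.Agent.S44.Core.DimCount.fl p Δ2, D, u2, hDx, hD2, fun Q => ?_⟩⟩
  · rw [Fermat.Agent.S44.Core.DimCount.fl_apply, hΔ1 Q]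
    exact (Int.mul_ediv_cancel' (hall1 Q)).symm
  · rw [Fermat.Agent.S44.Core.DimCount.fl_apply, hΔ2 Q]
    exact (Int.mul_ediv_cancel' (hall2 Q)).symm

set_option maxHeartbeats 1600000 in
/-- **the two clauses of `HnnData`** (`Top/Block4`), in its literal shape: the representative with
the non-node clause off the cusps, and `HasNodeOrd F x 0 → x ∈ finRed F`. -/
theorem hnnData (Y : NodeHyp F) (hLC : HasLocalCount F Y) :
    (∀ x : JZero (M * p), p • x = 0 →
      ∃ (D : Divisor.degZero (K := Qbar) (F := ↥(modularFunctionFieldBar (M * p))))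
        (u : (F.X.N.R1.O)ˣ), Pic0.mk D = x ∧
        (∀ P : Place Qbar ↥(modularFunctionFieldBar (M * p)),
          (p : ℤ) * (D : Divisor Qbar ↥(modularFunctionFieldBar (M * p))) P =
            P.ord (((u : F.X.N.R1.O)) : ↥(modularFunctionFieldBar (M * p)))) ∧
        ∀ Q : Place (ResidueField ↥A) ↥(modularFunctionFieldFullC (ResidueField ↥A) M),
          (∀ e, Q ≠ F.X.N.e1 e) →
            0 ≤ Q.ord (Fermat.Agent.S18.B.FkBasics.jk (ResidueField ↥A) M) →
              (p : ℤ) ∣ Q.ord (F.X.N.R1.red (u : F.X.N.R1.O))) ∧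
      ∀ x : JZero (M * p), HasNodeOrd F x 0 → x ∈ finRed F := by
  refine ⟨fun x hx => ?_, fun x hx => mem_finRed_of_hasNodeOrd_zero Y hLC hx⟩
  obtain ⟨D, u, hDx, hD, hoff⟩ := exists_offRep Y hLC x hx
  exact ⟨D, u, hDx, hD, fun Q hQ _ => hoff Q hQ⟩

end Fermat.Agent.S44.Fin.Hnn
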