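/-
PROJECT P (S44), brick [MP1] (L4) = [Heq] (helper23): THE HECKE OPERATORS `T_r` (`r ∤ M p`) AND THE
FIRST REDUCTION OF THE FINITE PART OF `J₀(M p)[p]`.

On top of helper16's `Eis/HeckeK` (`heckeDivK`, the reduction of `T_r` on the divisors of
`κ = k(X₀(M))`) and `Eis/HeckeNode` (`exists_hecke_red`):

* `HasRed1.hecke` : `HasRed1 F x Eb → HasRed1 F (T_r x) (heckeDivK Eb)`;
* `heckePic0K` : `heckeDivK` on `Pic⁰ κ` (`heckeDivK_mem_principal`: principal divisors go to
  principal divisors), `heckePic0K_mk`;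
* `reductionModL_hecke` : `red (T_r y) = heckePic0K (red y)` for `y ∈ J₀(M)` (good reduction);
* `heckePic0K_mk_of_hasRed1` : a `T_r`-eigenclass `x` of `J₀(M p)` with eigenvalue `a` has
  `heckePic0K [Eb] = a [Eb]`;
* `reductionModL_hecke_eq` : **(h2)**: if `red y ∈ ℤ [Eb]` then `red (T_r y - a y) = 0`.
-/
import Fermat.Agent.S44.Fin.Red
import Fermat.Agent.S44.Eis.HeckeNode

set_option autoImplicit false
set_option linter.unusedSectionVars false
set_option linter.unusedVariables false
set_option linter.style.haveILetI false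
set_option synthInstance.maxHeartbeats 400000

noncomputable section

namespace Fermat.Agent.S44.Fin.RedHecke

open ModularCurve AlgebraicCurve IsLocalRing
open Fermat.Agent.S34.NodalDefs Fermat.Agent.S34.CoreZX0Datum
open Fermat.Agent.S33.X0.Frame
open Fermat.Agent.S44.Fin.Red Fermat.Agent.S44.Eis.HeckeK Fermat.Agent.S44.Eis.HeckeNode
open Fermat.Agent.S18.GaussFromH Fermat.Agent.S15.A.HeckeRedB
open Fermat.Agent.S37.Hecke.Principal

local notation "Qbar" => AlgebraicClosure ℚ

attribute [local instance 2000] Fermat.Agent.S34.EulerX0.algResFk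

/-- local instance: principal divisors on `E` -/
local instance instPDBar (N : ℕ) [NeZero N] :
    HasPrincipalDivisors Qbar ↥(modularFunctionFieldBar N) :=
  Fermat.Agent.S18.A.Instances.hasPrincipalDivisors_bar N

/-- local instance: principal divisors on the components -/
local instance instPDFk (A : ValuationSubring Qbar) (N : ℕ) [NeZero N] :
    HasPrincipalDivisors (ResidueField ↥A) ↥(modularFunctionFieldFullC (ResidueField ↥A) N) :=
  Fermat.Agent.S37.ReductionInputs.hasPrincipalDivisors_Fk A N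

/-- local instance: the residue field is algebraically closed -/
local instance instACk (A : ValuationSubring Qbar) : IsAlgClosed (ResidueField ↥A) :=
  Fermat.Agent.S18.ResidueBasics.isAlgClosed_residueField A

/-- local instance: a prime is not zero -/
local instance instNeZeroPrimes (r : Nat.Primes) : NeZero (r : ℕ) := ⟨r.2.ne_zero⟩

variable {p : ℕ} [hp : Fact p.Prime] {M : ℕ} [NeZero M] {A : ValuationSubring Qbar} [NeZero p]
variable {hA : A.LiesOverPrime p} {hpM : ¬ p ∣ M}

local instance instNeZeroMul : NeZero (M * p) :=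
  ⟨Nat.mul_ne_zero (NeZero.ne M) (NeZero.ne p)⟩

/-! ### `T_r` and the first reduction at level `M p` -/

/-- **`T_r` and the first reduction**: `HasRed1 F x Eb → HasRed1 F (T_r x) (heckeDivK Eb)` -/
theorem HasRed1.hecke {F : ChartFrame hA hpM} (hF : RedStd F) (r : Nat.Primes)
    (hrp : (r : ℕ) ≠ p) (hrM : ¬ (r : ℕ) ∣ M) {x : JZero (M * p)}
    {Eb : Divisor (ResidueField ↥A) ↥(modularFunctionFieldFullC (ResidueField ↥A) M)}
    (h : HasRed1 F x Eb) :
    HasRed1 F (heckeOperatorBar (M * p) r x) (heckeDivK M hpM A hA (r : ℕ) Eb) := by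
  obtain ⟨D, u, rfl, hD, hE⟩ := h
  obtain ⟨D', u', hD'x, hD', hΔ⟩ := exists_hecke_red F hF r hrp hrM D u hD
  refine ⟨D', u', hD'x, hD', fun Q => ?_⟩
  rw [hΔ ((p : ℤ) • Eb) (fun Q' => by rw [Finsupp.smul_apply, smul_eq_mul, hE Q']) Q, map_zsmul,
    Finsupp.smul_apply, smul_eq_mul]

/-! ### `heckeDivK` on `Pic⁰ κ` -/

section Good

variable (hA hpM) (r : ℕ) [NeZero r]

include hA hpM in
/-- the series `normSeries ζ r w` of an element `w ≠ 0` of `κ` is the series of an element of
`κ` -/
theorem exists_normSeries (hr : r.Prime) (hrM : ¬ r ∣ M) (hrp : r ≠ p)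
    (w : ↥(modularFunctionFieldFullC (ResidueField ↥A) M)) (hw : w ≠ 0) :
    ∃ w' : ↥(modularFunctionFieldFullC (ResidueField ↥A) M), w' ≠ 0 ∧
      (w' : LaurentSeries (ResidueField ↥A)) =
        Fermat.Agent.S37.ES.NormRed.normSeries (zetaK A (residue ↥A) r) r
          (w : LaurentSeries (ResidueField ↥A)) := by
  have hrk : ((r : ℕ) : ResidueField ↥A) ≠ 0 :=
    Fermat.Agent.S18.ResidueBasics.natCast_ne_zero_of_not_dvd A hA
      (fun h => hrp ((Nat.prime_dvd_prime_iff_eq hp.out hr).mp h).symm)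
  have hrep := hasRep_good M hpM A hA
  have hπ := Fermat.Agent.S18.GaussFromHBar.residue_eq_zero_of_not_isUnit (A := A)
  obtain ⟨f, hf⟩ := redw_surjective (A := A) (N := M) IsLocalRing.residue_surjective w
  have hf0' : redw A (residue ↥A) M f ≠ 0 := hf ▸ hw
  obtain ⟨hmem, hser, hne⟩ := exists_redw_normBeta (r := r) hr hrM hrep hπ hrk f hf0'
  exact ⟨redw A (residue ↥A) M ⟨_, hmem⟩, hne, by rw [hser, hf]⟩

include hA hpM in
/-- **`heckeDivK` maps principal divisors to principal divisors** -/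
theorem heckeDivK_mem_principal (hr : r.Prime) (hrM : ¬ r ∣ M) (hrp : r ≠ p)
    {Dw : Divisor (ResidueField ↥A) ↥(modularFunctionFieldFullC (ResidueField ↥A) M)}
    (hDw : Dw ∈ Divisor.principal (K := ResidueField ↥A)
      (F := ↥(modularFunctionFieldFullC (ResidueField ↥A) M))) :
    heckeDivK M hpM A hA r Dw ∈ Divisor.principal (K := ResidueField ↥A)
      (F := ↥(modularFunctionFieldFullC (ResidueField ↥A) M)) := by
  obtain ⟨w, hw, hord⟩ := hDw
  obtain ⟨w', hw', hser⟩ := exists_normSeries hA hpM r hr hrM hrp w hw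
  exact ⟨w', hw', fun Q => (ord_normSeries hpM hA hr hrM hrp w w' hw hser Dw hord Q).symm⟩

/-- `heckeDivK` on the divisors of degree zero -/
def heckeDegZeroK (hr : r.Prime) (hrM : ¬ r ∣ M) :
    Divisor.degZero (K := ResidueField ↥A)
        (F := ↥(modularFunctionFieldFullC (ResidueField ↥A) M)) →+
      Divisor.degZero (K := ResidueField ↥A)
        (F := ↥(modularFunctionFieldFullC (ResidueField ↥A) M)) :=
  ((heckeDivK M hpM A hA r).comp (AddSubgroup.subtype _)).codRestrict _ (fun D => by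
    rw [Divisor.mem_degZero, AddMonoidHom.comp_apply, degree_heckeDivK hpM hA hr hrM]
    have h0 : Divisor.degree ((D : Divisor (ResidueField ↥A)
        ↥(modularFunctionFieldFullC (ResidueField ↥A) M))) = 0 := D.2
    rw [AddSubgroup.subtype_apply, h0, mul_zero])

theorem coe_heckeDegZeroK (hr : r.Prime) (hrM : ¬ r ∣ M)
    (D : Divisor.degZero (K := ResidueField ↥A)
      (F := ↥(modularFunctionFieldFullC (ResidueField ↥A) M))) :
    ((heckeDegZeroK hA hpM r hr hrM D : Divisor.degZero (K := ResidueField ↥A)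
        (F := ↥(modularFunctionFieldFullC (ResidueField ↥A) M))) :
      Divisor (ResidueField ↥A) ↥(modularFunctionFieldFullC (ResidueField ↥A) M)) =
      heckeDivK M hpM A hA r (D : Divisor (ResidueField ↥A)
        ↥(modularFunctionFieldFullC (ResidueField ↥A) M)) := rfl

/-- **the reduction of `T_r` on `Pic⁰ κ`** -/
def heckePic0K (hr : r.Prime) (hrM : ¬ r ∣ M) (hrp : r ≠ p) :
    Pic0 (ResidueField ↥A) ↥(modularFunctionFieldFullC (ResidueField ↥A) M) →+
      Pic0 (ResidueField ↥A) ↥(modularFunctionFieldFullC (ResidueField ↥A) M) :=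
  QuotientAddGroup.map _ _ (heckeDegZeroK hA hpM r hr hrM) (by
    rintro D hD
    rw [AddSubgroup.mem_comap, AddSubgroup.mem_addSubgroupOf, coe_heckeDegZeroK]
    exact heckeDivK_mem_principal hA hpM r hr hrM hrp (AddSubgroup.mem_addSubgroupOf.mp hD))

theorem heckePic0K_mk (hr : r.Prime) (hrM : ¬ r ∣ M) (hrp : r ≠ p)
    (D : Divisor.degZero (K := ResidueField ↥A)
      (F := ↥(modularFunctionFieldFullC (ResidueField ↥A) M))) :
    heckePic0K hA hpM r hr hrM hrp (Pic0.mk D) = Pic0.mk (heckeDegZeroK hA hpM r hr hrM D) := rfl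

end Good

/-! ### the good-reduction level `M` and the relation (h2) -/

open Fermat.Agent.S37.Hecke.Inputs Fermat.Agent.S37.Hecke.Integral in
set_option maxHeartbeats 1600000 in
/-- **`red (T_r y) = T_r (red y)`** at the level `M` of good reduction -/
theorem reductionModL_hecke (hA : A.LiesOverPrime p) (hpM : ¬ p ∣ M) (r : Nat.Primes)
    (hrM : ¬ (r : ℕ) ∣ M) (hrp : (r : ℕ) ≠ p) (y : JZero M) :
    reductionModL A M (heckeOperatorBar M r y) =
      heckePic0K hA hpM (r : ℕ) r.2 hrM hrp (reductionModL A M y) := by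
  haveI := hasPrincipalDivisors_level M (r : ℕ)
  have h := Fermat.Agent.S37.Cusps.CuspCountFinal.reductionInputsModL M A hA hpM
  obtain ⟨D, rfl⟩ := Pic0.mk_surjective y
  rw [heckeOperatorBar_mk M r D, reductionModL_mk h, reductionModL_mk h, heckePic0K_mk]
  congr 1
  apply Subtype.ext
  rw [coe_heckeDegZeroK, coe_reductionDegZeroAlong, coe_reductionDegZeroAlong,
    coe_degZeroCorrespondence]
  exact (heckeDivK_mapDomain hpM hA r.2 hrM _).symm

/-- a `T_r`-eigenclass of `J₀(M p)` with a first reduction `Eb` gives a `T_r`-eigenclass `[Eb]`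
of `Pic⁰ κ` with the same eigenvalue -/
theorem heckePic0K_mk_of_hasRed1 {F : ChartFrame hA hpM} (hF : RedStd F) (r : Nat.Primes)
    (hrp : (r : ℕ) ≠ p) (hrM : ¬ (r : ℕ) ∣ M) {x : JZero (M * p)}
    {Eb : Divisor (ResidueField ↥A) ↥(modularFunctionFieldFullC (ResidueField ↥A) M)}
    (h : HasRed1 F x Eb) (a : ℤ) (hx : heckeOperatorBar (M * p) r x = a • x) :
    heckePic0K hA hpM (r : ℕ) r.2 hrM hrp (Pic0.mk ⟨Eb, HasRed.degree_eq_zero p_ne_zero' h⟩) =
      a • Pic0.mk ⟨Eb, HasRed.degree_eq_zero p_ne_zero' h⟩ := by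
  have h1 : HasRed1 F (a • x) (heckeDivK M hpM A hA (r : ℕ) Eb) :=
    hx ▸ HasRed1.hecke hF r hrp hrM h
  -- the class `x` as an element of the domain of the reduction map
  obtain ⟨x', hx'⟩ : ∃ x' : redSub F.X.N.R1.toBranch p, (x' : JZero (M * p)) = x :=
    ⟨⟨x, Eb, h⟩, rfl⟩
  have h' : HasRed F.X.N.R1.toBranch p (x' : JZero (M * p)) Eb := hx'.symm ▸ h
  have h1' : HasRed F.X.N.R1.toBranch p ((a • x' : redSub F.X.N.R1.toBranch p) : JZero (M * p))
      (heckeDivK M hpM A hA (r : ℕ) Eb) := by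
    rw [AddSubgroup.coe_zsmul, hx']
    exact h1
  have e1 := rho_eq constE p_ne_zero' x' h'
  have e2 := rho_eq constE p_ne_zero' (a • x') h1'
  rw [map_zsmul, e1] at e2
  rw [heckePic0K_mk, e2]
  rfl

/-- **(h2)**: for a `T_r`-eigenclass `x` of `J₀(M p)` with eigenvalue `a` and first reduction `Eb`,
every class `y` of `J₀(M)` whose reduction is a multiple of `[Eb]` has `red (T_r y - a y) = 0` -/
theorem reductionModL_hecke_eq {F : ChartFrame hA hpM} (hF : RedStd F) (r : Nat.Primes)
    (hrp : (r : ℕ) ≠ p) (hrM : ¬ (r : ℕ) ∣ M) {x : JZero (M * p)}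
    {Eb : Divisor (ResidueField ↥A) ↥(modularFunctionFieldFullC (ResidueField ↥A) M)}
    (h : HasRed1 F x Eb) (a : ℤ) (hx : heckeOperatorBar (M * p) r x = a • x) (y : JZero M) (c : ℤ)
    (hy : reductionModL A M y = c • Pic0.mk ⟨Eb, HasRed.degree_eq_zero p_ne_zero' h⟩) :
    reductionModL A M (heckeOperatorBar M r y - a • y) = 0 := by
  rw [map_sub, map_zsmul, reductionModL_hecke hA hpM r hrM hrp y, hy, map_zsmul,
    heckePic0K_mk_of_hasRed1 hF r hrp hrM h a hx, smul_comm, sub_self]

/-- the same with the reduction map `rho1` of the finite part -/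
theorem reductionModL_hecke_eq_rho1 {F : ChartFrame hA hpM} (hF : RedStd F) (r : Nat.Primes)
    (hrp : (r : ℕ) ≠ p) (hrM : ¬ (r : ℕ) ∣ M) (x : finRed F) (a : ℤ)
    (hx : heckeOperatorBar (M * p) r (x : JZero (M * p)) = a • (x : JZero (M * p))) (y : JZero M)
    (c : ℤ) (hy : reductionModL A M y = c • rho1 F x) :
    reductionModL A M (heckeOperatorBar M r y - a • y) = 0 := by
  obtain ⟨⟨Eb, h⟩, -⟩ := x.2
  rw [rho1_eq x h] at hy
  exact reductionModL_hecke_eq hF r hrp hrM h a hx y c hy

/-! ### the reductions of the frame are onto; the kernel lemma without side hypotheses -/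

open Fermat.Agent.S34.GaussPairX0 in
/-- the first reduction of a standard frame is onto -/
theorem surjective_red1 {F : ChartFrame hA hpM} (hF : RedStd F) :
    Function.Surjective F.X.N.R1.red := by
  intro ψ
  obtain ⟨y, hy⟩ := red₁_surjective hA hpM ψ
  exact ⟨⟨(y : ↥(modularFunctionFieldBar (M * p))), mem_of_mem_V₁ F y.2⟩,
    (hF _ (mem_of_mem_V₁ F y.2) y.2).trans hy⟩

open Fermat.Agent.S34.GaussPairX0 in
/-- the second reduction of a standard frame is onto -/
theorem surjective_red2 {F : ChartFrame hA hpM} (hF2 : RedStd2 F) :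
    Function.Surjective F.X.N.R2.red := by
  intro ψ
  obtain ⟨y, hy⟩ := red₂_surjective hA hpM ψ
  exact ⟨⟨(y : ↥(modularFunctionFieldBar (M * p))), mem_of_mem_V₂ F y.2⟩,
    (hF2 _ (mem_of_mem_V₂ F y.2) y.2).trans hy⟩

/-- **the kernel of the two reductions is the group of `1`-unit classes**, for a standard frame -/
theorem mem_oneUnit_of_rho_eq_zero_of_redStd {F : ChartFrame hA hpM} (hF : RedStd F)
    (hF2 : RedStd2 F) (x : finRed F) (h1 : rho1 F x = 0) (h2 : rho2 F x = 0) :
    (x : JZero (M * p)) ∈ Fermat.Agent.S33.KP.OneUnit.oneUnit hA hpM p :=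
  mem_oneUnit_of_rho_eq_zero (surjective_red1 hF) (surjective_red2 hF2) x h1 h2

end Fermat.Agent.S44.Fin.RedHecke
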