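/-
PROJECT P (S44), brick [MP1] (L4) for the SECOND reduction (helper21): the twin of helper23's
`Fin/RedHecke` (h2) for `rho2`, on top of helper16's `Eis/HeckeWq.exists_hecke_red₂` (E1').

* `hasRed2_hecke` : `HasRed2 F x Eb → HasRed2 F (T_r x) (heckeDivK Eb)`;
* `heckePic0K_mk_of_hasRed2` : a `T_r`-eigenclass `x` of `J₀(M p)` with eigenvalue `a` has
  `heckePic0K [Eb] = a [Eb]` for its second reduction `Eb`;
* `reductionModL_hecke_eq2`, `reductionModL_hecke_eq_rho2` : **(h2)** for the second reduction, the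
  binder list of `RedHecke.reductionModL_hecke_eq_rho1` with `RedStd2`, `rho2`.
-/
import Fermat.Agent.S44.Fin.RedHecke
import Fermat.Agent.S44.Eis.HeckeWq

set_option autoImplicit false
set_option linter.unusedSectionVars false
set_option linter.unusedVariables false
set_option linter.style.haveILetI false
set_option synthInstance.maxHeartbeats 400000

noncomputable section

namespace Fermat.Agent.S44.Fin.RedHecke2

open ModularCurve AlgebraicCurve IsLocalRing
open Fermat.Agent.S34.NodalDefs Fermat.Agent.S34.CoreZX0Datum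
open Fermat.Agent.S33.X0.Frame
open Fermat.Agent.S44.Fin.Red Fermat.Agent.S44.Fin.RedHecke Fermat.Agent.S44.Eis.HeckeK
open Fermat.Agent.S44.Eis.HeckeNode Fermat.Agent.S44.Eis.HeckeWq

local notation "Qbar" => AlgebraicClosure ℚ

attribute [local instance 2000] Fermat.Agent.S34.EulerX0.algResFk

/-- local instance: principal divisors on `E` -/
local instance instPDBar (N : ℕ) [NeZero N] :
    HasPrincipalDivisors Qbar ↥(modularFunctionFieldBar N) :=
  Fermat.Agent.S18.A.Instances.hasPrincipalDivisors_bar N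

/-- local instance: principal divisors on the components -/
local instance instPDFk (A : ValuationSubring Qbar) (N : ℕ) [NeZero N] :
    HasPrincipalDivisors (ResidueField ↥A) ↥(modularFunctionFieldFullC (ResidueField ↥A) N) :=
  Fermat.Agent.S37.ReductionInputs.hasPrincipalDivisors_Fk A N

/-- local instance: the residue field is algebraically closed -/
local instance instACk (A : ValuationSubring Qbar) : IsAlgClosed (ResidueField ↥A) :=
  Fermat.Agent.S18.ResidueBasics.isAlgClosed_residueField A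

/-- local instance: a prime is not zero -/
local instance instNeZeroPrimes (r : Nat.Primes) : NeZero (r : ℕ) := ⟨r.2.ne_zero⟩

variable {p : ℕ} [hp : Fact p.Prime] {M : ℕ} [NeZero M] {A : ValuationSubring Qbar} [NeZero p]
variable {hA : A.LiesOverPrime p} {hpM : ¬ p ∣ M}

local instance instNeZeroMul : NeZero (M * p) :=
  ⟨Nat.mul_ne_zero (NeZero.ne M) (NeZero.ne p)⟩

/-- **`T_r` and the second reduction**: `HasRed2 F x Eb → HasRed2 F (T_r x) (heckeDivK Eb)` -/
theorem hasRed2_hecke {F : ChartFrame hA hpM} (hF2 : RedStd2 F) (r : Nat.Primes)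
    (hrp : (r : ℕ) ≠ p) (hrM : ¬ (r : ℕ) ∣ M) {x : JZero (M * p)}
    {Eb : Divisor (ResidueField ↥A) ↥(modularFunctionFieldFullC (ResidueField ↥A) M)}
    (h : HasRed2 F x Eb) :
    HasRed2 F (heckeOperatorBar (M * p) r x) (heckeDivK M hpM A hA (r : ℕ) Eb) := by
  obtain ⟨D, u, rfl, hD, hE⟩ := h
  obtain ⟨D', u', hD'x, hD', hΔ⟩ := exists_hecke_red₂ F hF2 r hrp hrM D u hD
  refine ⟨D', u', hD'x, hD', fun Q => ?_⟩
  rw [hΔ ((p : ℤ) • Eb) (fun Q' => by rw [Finsupp.smul_apply, smul_eq_mul, hE Q']) Q, map_zsmul,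
    Finsupp.smul_apply, smul_eq_mul]

/-- a `T_r`-eigenclass of `J₀(M p)` with a second reduction `Eb` gives a `T_r`-eigenclass `[Eb]`
of `Pic⁰ κ` with the same eigenvalue -/
theorem heckePic0K_mk_of_hasRed2 {F : ChartFrame hA hpM} (hF2 : RedStd2 F) (r : Nat.Primes)
    (hrp : (r : ℕ) ≠ p) (hrM : ¬ (r : ℕ) ∣ M) {x : JZero (M * p)}
    {Eb : Divisor (ResidueField ↥A) ↥(modularFunctionFieldFullC (ResidueField ↥A) M)}
    (h : HasRed2 F x Eb) (a : ℤ) (hx : heckeOperatorBar (M * p) r x = a • x) :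
    heckePic0K hA hpM (r : ℕ) r.2 hrM hrp (Pic0.mk ⟨Eb, HasRed.degree_eq_zero p_ne_zero' h⟩) =
      a • Pic0.mk ⟨Eb, HasRed.degree_eq_zero p_ne_zero' h⟩ := by
  have h1 : HasRed2 F (a • x) (heckeDivK M hpM A hA (r : ℕ) Eb) :=
    hx ▸ hasRed2_hecke hF2 r hrp hrM h
  obtain ⟨x', hx'⟩ : ∃ x' : redSub F.X.N.R2.toBranch p, (x' : JZero (M * p)) = x :=
    ⟨⟨x, Eb, h⟩, rfl⟩
  have h' : HasRed F.X.N.R2.toBranch p (x' : JZero (M * p)) Eb := hx'.symm ▸ h
  have h1' : HasRed F.X.N.R2.toBranch p ((a • x' : redSub F.X.N.R2.toBranch p) : JZero (M * p))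
      (heckeDivK M hpM A hA (r : ℕ) Eb) := by
    rw [AddSubgroup.coe_zsmul, hx']
    exact h1
  have e1 := rho_eq constE p_ne_zero' x' h'
  have e2 := rho_eq constE p_ne_zero' (a • x') h1'
  rw [map_zsmul, e1] at e2
  rw [heckePic0K_mk, e2]
  rfl

/-- **(h2), second reduction**: for a `T_r`-eigenclass `x` of `J₀(M p)` with eigenvalue `a` and
second reduction `Eb`, every class `y` of `J₀(M)` whose reduction is a multiple of `[Eb]` has
`red (T_r y - a y) = 0` -/
theorem reductionModL_hecke_eq2 {F : ChartFrame hA hpM} (hF2 : RedStd2 F) (r : Nat.Primes)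
    (hrp : (r : ℕ) ≠ p) (hrM : ¬ (r : ℕ) ∣ M) {x : JZero (M * p)}
    {Eb : Divisor (ResidueField ↥A) ↥(modularFunctionFieldFullC (ResidueField ↥A) M)}
    (h : HasRed2 F x Eb) (a : ℤ) (hx : heckeOperatorBar (M * p) r x = a • x) (y : JZero M) (c : ℤ)
    (hy : reductionModL A M y = c • Pic0.mk ⟨Eb, HasRed.degree_eq_zero p_ne_zero' h⟩) :
    reductionModL A M (heckeOperatorBar M r y - a • y) = 0 := by
  rw [map_sub, map_zsmul, reductionModL_hecke hA hpM r hrM hrp y, hy, map_zsmul,
    heckePic0K_mk_of_hasRed2 hF2 r hrp hrM h a hx, smul_comm, sub_self]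

/-- the same with the reduction map `rho2` of the finite part -/
theorem reductionModL_hecke_eq_rho2 {F : ChartFrame hA hpM} (hF2 : RedStd2 F) (r : Nat.Primes)
    (hrp : (r : ℕ) ≠ p) (hrM : ¬ (r : ℕ) ∣ M) (x : finRed F) (a : ℤ)
    (hx : heckeOperatorBar (M * p) r (x : JZero (M * p)) = a • (x : JZero (M * p))) (y : JZero M)
    (c : ℤ) (hy : reductionModL A M y = c • rho2 F x) :
    reductionModL A M (heckeOperatorBar M r y - a • y) = 0 := by
  obtain ⟨-, ⟨Eb, h⟩⟩ := x.2
  rw [rho2_eq x h] at hy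
  exact reductionModL_hecke_eq2 hF2 r hrp hrM h a hx y c hy

end Fermat.Agent.S44.Fin.RedHecke2

end
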