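/-
PROJECT P (S44), brick (X5') at `X₀(M)` (helper22): FROM THE SPECIAL FIBRE OF LEVEL `M` BACK TO
`J₀(M)(ℚ̄)[p]` WITHOUT LIFTING TORSION.

Frame: `p` prime, `p ∤ M`, `A` a valuation ring of `ℚ̄` over `p`,
`reductionModL A M : JZero M →+ JZeroC (ResidueField A) M` (Prelude).

* `exists_pow_smul_eq` : every point of `J₀(N)(ℚ̄)` is fixed by a positive power of any given
  element of `G_ℚ` (open stabilisers, `S30/Arith/Smooth.exists_finite_fixing`);
* `exists_eigenvector` : let `z ∈ J₀(M)(ℚ̄)` be ANY point (no torsion hypothesis) whose reduction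
  `z̄` is non-zero, killed by `p`, and a joint eigenvector in the relation form
  `red y = z̄ → red (T_l y) = a_l • red y` for the good primes `l`.  Then `J₀(M)(ℚ̄)[p]` contains a
  non-zero joint eigenvector of the `T_l` with the eigenvalues `a_l`.
  This is `S44/Alg/KummerLift.exists_eigenvector` with: divisibility of `J₀(M)(ℚ̄)`
  (`S17/Div/Final`), finiteness of `J₀(M)[p]` (`S30/Descent/PhiDictThm`), commutativity of the Hecke
  operators on torsion (`S15/G/HeckeComm`), Hecke commutes with `G_ℚ` (`S30/Arith/HeckeGalois`) and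
  preserves the kernel of the reduction (`S15/A/HeckeRedC`), Frobenius elements
  (`Lib/FrobeniusExists`), and the finiteness of the Frobenius-fixed points of the special fibre
  (`S15/P/FrobFixed/Red.exists_exponent`).
* `exists_tate_eigenvector` : the same as a Tate vector `w` with `w.1 1 ≠ 0`, the literal input of
  `S44/Exit/Old.modularRepOfLevel_of_tate`.
-/
import Fermat.Agent.S44.Alg.KummerLift
import Fermat.Agent.S58.TateNonzero
import Fermat.Agent.S30.Descent.PhiDictThm
import Fermat.Agent.S30.Arith.Smooth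
import Fermat.Agent.S30.Arith.HeckeGalois
import Fermat.Agent.S15.G.HeckeComm
import Fermat.Agent.S15.A.HeckeRedC
import Fermat.Agent.S15.P.FrobFixed.Red
import Fermat.Agent.S17.Div.Final
import Fermat.Agent.Lib.FrobeniusExists

set_option autoImplicit false
set_option linter.unusedSectionVars false
set_option linter.style.haveILetI false

noncomputable section

namespace Fermat.Agent.S44.Fin.KummerX0

open ModularCurve
open Fermat.Agent.S30.Padic.TateModule

local notation "Kb" => AlgebraicClosure ℚ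
local notation "GQ" => (AlgebraicClosure ℚ ≃ₐ[ℚ] AlgebraicClosure ℚ)

/-! ### a positive power of `σ` fixes a given point -/

/-- a positive power of `σ` fixes a finite extension of `ℚ` pointwise -/
theorem exists_pow_fixes (σ : GQ) (E : IntermediateField ℚ Kb) [FiniteDimensional ℚ E] :
    ∃ f : ℕ, 0 < f ∧ ∀ a ∈ E, (σ ^ f) a = a := by
  classical
  let g : ℕ → (↥E →ₐ[ℚ] Kb) := fun k => ((σ ^ k : GQ) : Kb →ₐ[ℚ] Kb).comp E.val
  have hnot : ¬ Function.Injective g := not_injective_infinite_finite g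
  rw [Function.Injective] at hnot
  push Not at hnot
  obtain ⟨k1, k2, h12, hne⟩ := hnot
  have key : ∀ k1 k2 : ℕ, k1 < k2 → g k1 = g k2 → ∃ f : ℕ, 0 < f ∧ ∀ a ∈ E, (σ ^ f) a = a := by
    intro k1 k2 hlt heq
    refine ⟨k2 - k1, by omega, fun a ha => ?_⟩
    have h1 : (σ ^ k1) a = (σ ^ k2) a := by
      have := congrArg (fun h : ↥E →ₐ[ℚ] Kb => h ⟨a, ha⟩) heq
      exact this
    have h2 : σ ^ k2 = σ ^ k1 * σ ^ (k2 - k1) := by
      rw [← pow_add]; congr 1; omega
    rw [h2, AlgEquiv.mul_apply] at h1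
    exact ((σ ^ k1).injective h1).symm
  rcases lt_or_gt_of_ne hne with h | h
  · exact key k1 k2 h h12
  · exact key k2 k1 h h12.symm

/-- **every point of `J₀(N)(ℚ̄)` is fixed by a positive power of `σ`** -/
theorem exists_pow_smul_eq (N : ℕ) [NeZero N] (σ : GQ) (x : JZero N) :
    ∃ f : ℕ, 0 < f ∧ (σ ^ f) • x = x := by
  obtain ⟨E, hE, hfix⟩ := Fermat.Agent.S30.Arith.Smooth.exists_finite_fixing N x
  haveI := hE
  obtain ⟨f, hf, h⟩ := exists_pow_fixes σ E
  exact ⟨f, hf, hfix (σ ^ f) h⟩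

/-! ### From the special fibre to the generic fibre -/

section Eigen

variable {p : ℕ} [Fact p.Prime] {M : ℕ} [NeZero M]

/-- **(X5') at `X₀(M)`.**  ANY point of `J₀(M)(ℚ̄)` whose reduction at `A` is a non-zero joint
eigenvector killed by `p` (relation form) gives a non-zero joint eigenvector in
`J₀(M)(ℚ̄)[p]`. -/
theorem exists_eigenvector (hpM : ¬ p ∣ M) (A : ValuationSubring Kb) (hA : A.LiesOverPrime p)
    (good : Set ℕ) (hgood : ∀ l ∈ good, ¬ l ∣ M ∧ l ≠ p) (a : ℕ → ℤ)
    (z : JZero M) (hz : reductionModL A M z ≠ 0) (hpz : p • reductionModL A M z = 0)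
    (heig : ∀ y : JZero M, reductionModL A M y = reductionModL A M z →
      ∀ (l : ℕ) (hl : l.Prime), l ∈ good →
        reductionModL A M (heckeOperatorBar M ⟨l, hl⟩ y) = a l • reductionModL A M y) :
    ∃ w : JZero M, w ≠ 0 ∧ p • w = 0 ∧ ∀ (l : ℕ) (hl : l.Prime), l ∈ good →
      heckeOperatorBar M ⟨l, hl⟩ w = a l • w := by
  classical
  have hp : p.Prime := Fact.out
  -- a Frobenius element and a power of it fixing `z`
  obtain ⟨σ0, hσ0⟩ :=
    Fermat.Agent.Lib.FrobeniusExists.exists_isFrobeniusAt_algebraicClosure A hp hA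
  obtain ⟨f, hf, hfz⟩ := exists_pow_smul_eq M σ0 z
  obtain ⟨e, he, hexp⟩ := Fermat.Agent.S15.P.FrobFixed.Red.exists_exponent A hA hpM hf
  -- the family
  let I := {r : Nat.Primes // (r : ℕ) ∈ good}
  let T : I → Module.End ℤ (JZero M) := fun i => heckeOperatorBar M i.1
  let σ : JZero M →+ JZero M := DistribSMul.toAddMonoidHom (JZero M) (σ0 ^ f)
  have hσ : ∀ x, σ x = (σ0 ^ f) • x := fun _ => rfl
  obtain ⟨w, hw0, hpw, hweig⟩ := Fermat.Agent.S44.Alg.KummerLift.exists_eigenvector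
    (reductionModL A M) p hp T (fun i => a (i.1 : ℕ)) σ
    (fun i j x hx => Fermat.Agent.S15.G.HeckeComm.hecke_comm_torsion' M hp i.1 j.1
      (Or.inl (hgood _ i.2)) ⟨1, by rw [pow_one]; exact hx⟩)
    (fun i x => by
      rw [hσ, hσ]
      exact Fermat.Agent.S30.Arith.HeckeGalois.heckeOperatorBar_smul M i.1 (σ0 ^ f) x)
    (fun i x hx => Fermat.Agent.S15.A.HeckeRedC.reductionModL_heckeOperatorBar_eq_zero M hpM A hA
      i.1 (hgood _ i.2).1 x hx)
    (fun y => Fermat.Agent.S17.Div.exists_nsmul_eq M p hp.ne_zero y)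
    (Fermat.Agent.S30.Descent.PhiDictThm.finite_torsion M hp.ne_zero)
    (reductionModL A M z) hz hpz
    (fun y hy i => by
      have h2 := heig y hy (i.1 : ℕ) i.1.2 i.2
      have h3 : (⟨(i.1 : ℕ), i.1.2⟩ : Nat.Primes) = i.1 := Subtype.ext rfl
      rw [h3] at h2
      rw [map_sub, map_zsmul, h2, sub_self])
    ⟨z, rfl, by rw [hσ]; exact hfz⟩
    ⟨e, he, fun x hx => hexp σ0 hσ0 x (by rw [← hσ, hx])⟩
  refine ⟨w, hw0, hpw, fun l hl hlg => ?_⟩
  exact hweig ⟨⟨l, hl⟩, hlg⟩

/-- **(X5'), Tate form** (the literal input of `S44/Exit/Old.modularRepOfLevel_of_tate`). -/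
theorem exists_tate_eigenvector (hpM : ¬ p ∣ M) (A : ValuationSubring Kb)
    (hA : A.LiesOverPrime p) (good : Set ℕ) (hgood : ∀ l ∈ good, ¬ l ∣ M ∧ l ≠ p) (a : ℕ → ℤ)
    (z : JZero M) (hz : reductionModL A M z ≠ 0) (hpz : p • reductionModL A M z = 0)
    (heig : ∀ y : JZero M, reductionModL A M y = reductionModL A M z →
      ∀ (l : ℕ) (hl : l.Prime), l ∈ good →
        reductionModL A M (heckeOperatorBar M ⟨l, hl⟩ y) = a l • reductionModL A M y) :
    ∃ w : Tp p (JZero M), w.1 1 ≠ 0 ∧ ∀ (l : ℕ) (hl : l.Prime), l ∈ good →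
      heckeOperatorBar M ⟨l, hl⟩ (w.1 1) = a l • w.1 1 := by
  have hp : p.Prime := Fact.out
  obtain ⟨w, hw0, hpw, hweig⟩ := exists_eigenvector hpM A hA good hgood a z hz hpz heig
  obtain ⟨x, hx⟩ := Fermat.Agent.S58.TateNonzero.exists_tp_apply_one p
    (fun k y hy => by
      obtain ⟨y', hy'⟩ := Fermat.Agent.S17.Div.exists_nsmul_eq M p hp.ne_zero y
      exact ⟨y', hy', by rw [pow_succ, mul_smul, hy', hy]⟩) w hpw
  exact ⟨x, by rw [hx]; exact hw0, fun l hl hlg => by rw [hx]; exact hweig l hl hlg⟩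

end Eigen

end Fermat.Agent.S44.Fin.KummerX0

end
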