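import Fermat.Agent.S33.X0.SeamC
import Fermat.Agent.S56.Ord.OmegaRam

/-!
# PROJECT P (S44), brick [MP2] `Fin/Omega` (helper17): inertia is cyclotomic on flagged subgroups of
the one-unit classes, and the contradiction of item (6) of TABLE P-0

Frame F0 (= the landed `S33/X0/SeamC` frame): `p` prime, `p ∤ M`, `A` a valuation ring of `ℚ̄` over
`p`, `J = J₀(M p)(ℚ̄)`, `I = I_A` the inertia group, `U_n = S33.KP.OneUnit.oneUnit hA hpM n`.

* `cyc_on_oneUnit` : **(MP2-a)** every `τ ∈ I` acts on every reachable subgroup `B ≤ U_{p^j}` as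
  multiplication by `cycExp p j τ` (landed SEAM C `SeamC.exists_nodalChart` + `Hopf/Api.cyc_of_chart`);
* `reach_of_flag` : **(MP2-b)** a two-step `I`-stable flag `⊥ ≤ L ≤ B` with steps of index `1` or `p`
  is a chain in the sense of `S33/Alg/Reach`;
* `exists_mem_inertia_cycExp` : for `p` odd some `τ₀ ∈ I` has `cycExp p 1 τ₀ ≢ 1 mod p`;
* `le_of_flag_of_le_oneUnit` : **(MP2-c)** `L ≤ B ≤ U_p` a flag as in (MP2-b) with `(τ - 1) B ≤ L`
  for all `τ ∈ I`  ⟹  `B ≤ L`;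
* `false_of_flag_of_le_oneUnit` : **export = item (6)**: such a flag with `L.relIndex B = p` does not
  exist (for `p` odd).  [TOP: `B = V = range φ`, `L = φ(L_E)`, `V ≤ U_p` from item (5).]
-/

set_option autoImplicit false
set_option linter.unusedSectionVars false
set_option linter.style.haveILetI false
set_option synthInstance.maxHeartbeats 400000

noncomputable section

namespace Fermat.Agent.S44.Fin.Omega

open ModularCurve
open Fermat.Agent.S15.P.CycAct Fermat.Agent.S33.Alg.Reach Fermat.Agent.S33.KP.OneUnit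

local notation "Qbar" => AlgebraicClosure ℚ
local notation "GQ" => (AlgebraicClosure ℚ ≃ₐ[ℚ] AlgebraicClosure ℚ)

variable {p : ℕ} [hp : Fact p.Prime] {M : ℕ} [NeZero M] {A : ValuationSubring Qbar}
variable (hA : A.LiesOverPrime p) (hpM : ¬ p ∣ M) [NeZero p] [NeZero (M * p)]

set_option maxHeartbeats 800000 in
/-- **(MP2-a)** On every reachable subgroup of the one-unit classes of level `p ^ j` the inertia
group of `A` acts through the cyclotomic character. -/
theorem cyc_on_oneUnit (j : ℕ) (B : AddSubgroup (JZero (M * p)))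
    (hB : B ≤ oneUnit hA hpM (p ^ j))
    (hR : Reach (fun (τ : ↥(A.inertiaSubgroupIn ℚ)) (z : JZero (M * p)) => (τ : GQ) • z) p B)
    (τ : ↥(A.inertiaSubgroupIn ℚ)) (z : JZero (M * p)) (hz : z ∈ B) :
    (τ : GQ) • z = cycExp p j (τ : GQ) • z := by
  obtain ⟨J1, g, coord, Ψ, hst, hinj, hnu, hI, hadd, hone⟩ :=
    Fermat.Agent.S33.X0.SeamC.exists_nodalChart hA hpM
  exact Fermat.Agent.S33.Hopf.Api.cyc_of_chart hA J1 coord Ψ hst hinj hnu hI hadd j B
    (fun z hz => ⟨hone j (hB hz), nsmul_eq_zero_of_mem_oneUnit hA hpM (hB hz)⟩) hR τ z hz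

section Flag

variable {Ix : Type*} {G : Type*} [AddCommGroup G]

/-- **(MP2-b)** a two-step stable flag with steps of index `1` or `p` is a chain. -/
theorem reach_of_flag {act : Ix → G → G} {q : ℕ} (h0 : ∀ τ, act τ 0 = 0) {L B : AddSubgroup G}
    (hL : ∀ τ, ∀ s ∈ L, act τ s ∈ L) (hB : ∀ τ, ∀ s ∈ B, act τ s ∈ B) (hLB : L ≤ B)
    (hiL : Nat.card L = 1 ∨ Nat.card L = q) (hiB : L.relIndex B = 1 ∨ L.relIndex B = q) :
    Reach act q B := by
  refine reach_step (reach_step (reach_bot act q h0) bot_le hL ?_) hLB hB hiB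
  rwa [AddSubgroup.relIndex_bot_left]

end Flag

/-- arithmetic: `p ∣ c - 1` in `ℤ` for a natural number `c` gives `c = 1 + p m` -/
theorem exists_eq_one_add_mul {q c : ℕ} (hq : 2 ≤ q) (h : (q : ℤ) ∣ (c : ℤ) - 1) :
    ∃ m : ℕ, c = 1 + q * m := by
  obtain ⟨m, hm⟩ := h
  have hc1 : 1 ≤ c := by
    rcases Nat.eq_zero_or_pos c with h0 | h0
    · exfalso
      rw [h0] at hm
      have h1 : (q : ℤ) ∣ 1 := ⟨-m, by push_cast at hm ⊢; linarith⟩
      have h2 := Int.le_of_dvd one_pos h1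
      have h3 : (2 : ℤ) ≤ q := by exact_mod_cast hq
      omega
    · exact h0
  have hm0 : 0 ≤ m := by
    by_contra hneg
    push Not at hneg
    have h1 : (0 : ℤ) ≤ (c : ℤ) - 1 := by
      have : (1 : ℤ) ≤ c := by exact_mod_cast hc1
      linarith
    have h2 : (q : ℤ) * m < 0 :=
      mul_neg_of_pos_of_neg (by exact_mod_cast (lt_of_lt_of_le zero_lt_two hq)) hneg
    linarith
  obtain ⟨m', rfl⟩ := Int.eq_ofNat_of_zero_le hm0
  refine ⟨m', ?_⟩
  have : (c : ℤ) = 1 + q * m' := by linarith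
  exact_mod_cast this

include hA in
/-- for `p` odd some element of the inertia group has `cycExp p 1 ≢ 1` modulo `p` -/
theorem exists_mem_inertia_cycExp (hp2 : p ≠ 2) :
    ∃ τ₀ : ↥(A.inertiaSubgroupIn ℚ), ¬ (p : ℤ) ∣ (cycExp p 1 (τ₀ : GQ) : ℤ) - 1 := by
  obtain ⟨s, hs, ζ, hζ, hne⟩ :=
    Fermat.Agent.S56.Ord.OmegaRam.exists_mem_inertia_ne hp.out hp2 hA
  refine ⟨⟨s, hs⟩, fun hdvd => hne ?_⟩
  have hspec : s ζ = ζ ^ cycExp p 1 s := cycExp_spec p 1 s ζ (by rwa [pow_one])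
  obtain ⟨m, hm⟩ := exists_eq_one_add_mul hp.out.two_le hdvd
  rw [hspec, hm, pow_add, pow_one, pow_mul, hζ, one_pow, mul_one]

set_option maxHeartbeats 800000 in
/-- **(MP2-c)** A flag `L ≤ B` of inertia-stable subgroups of the one-unit classes `U_p`, with steps of
index `1` or `p` and trivial inertia action on `B / L`, collapses: `B ≤ L`. -/
theorem le_of_flag_of_le_oneUnit (hp2 : p ≠ 2) {L B : AddSubgroup (JZero (M * p))}
    (hL : ∀ τ ∈ A.inertiaSubgroupIn ℚ, ∀ z ∈ L, τ • z ∈ L)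
    (hB : ∀ τ ∈ A.inertiaSubgroupIn ℚ, ∀ z ∈ B, τ • z ∈ B) (hLB : L ≤ B)
    (hiL : Nat.card L = 1 ∨ Nat.card L = p) (hiB : L.relIndex B = 1 ∨ L.relIndex B = p)
    (htriv : ∀ τ ∈ A.inertiaSubgroupIn ℚ, ∀ x ∈ B, τ • x - x ∈ L)
    (hBU : B ≤ oneUnit hA hpM p) : B ≤ L := by
  have hBU' : B ≤ oneUnit hA hpM (p ^ 1) := by rwa [pow_one]
  have hR : Reach (fun (τ : ↥(A.inertiaSubgroupIn ℚ)) (z : JZero (M * p)) => (τ : GQ) • z) p B :=
    reach_of_flag
      (act := fun (τ : ↥(A.inertiaSubgroupIn ℚ)) (z : JZero (M * p)) => (τ : GQ) • z)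
      (fun τ => by
        have h0 := smul_zero (A := JZero (M * p)) (τ : GQ)
        exact h0)
      (fun τ s hs => hL τ τ.2 s hs) (fun τ s hs => hB τ τ.2 s hs)
      hLB hiL hiB
  have hcyc := cyc_on_oneUnit hA hpM 1 B hBU' hR
  obtain ⟨τ₀, hτ₀⟩ := exists_mem_inertia_cycExp hA hp2
  -- the restricted action on `↥B`
  let actB : ↥(A.inertiaSubgroupIn ℚ) → ↥B →+ ↥B := fun τ =>
    { toFun := fun x => ⟨(τ : GQ) • (x : JZero (M * p)), hB τ τ.2 x x.2⟩
      map_zero' := Subtype.ext (smul_zero _)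
      map_add' := fun x y => Subtype.ext (smul_add _ _ _) }
  have htop := eq_top_of_trivial_quotient (actM := actB) hp.out 1
    (fun m => Subtype.ext (by
      rw [AddSubgroup.coe_nsmul, ZeroMemClass.coe_zero, pow_one]
      exact nsmul_eq_zero_of_mem_oneUnit hA hpM (hBU m.2)))
    (fun τ => cycExp p 1 (τ : GQ))
    (fun τ m => Subtype.ext (by
      rw [AddSubgroup.coe_nsmul]
      exact hcyc τ m m.2))
    (L.addSubgroupOf B)
    (fun τ m => by
      rw [AddSubgroup.mem_addSubgroupOf]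
      exact htriv τ τ.2 m m.2)
    τ₀ hτ₀
  intro x hx
  have : (⟨x, hx⟩ : ↥B) ∈ L.addSubgroupOf B := by rw [htop]; trivial
  exact AddSubgroup.mem_addSubgroupOf.1 this

/-- **export = item (6) of TABLE P-0**: for `p` odd there is no inertia-stable flag `L < B` inside
the one-unit classes `U_p` with `#L ∈ {1, p}`, `[B : L] = p` and trivial inertia action on `B / L`. -/
theorem false_of_flag_of_le_oneUnit (hp2 : p ≠ 2) {L B : AddSubgroup (JZero (M * p))}
    (hL : ∀ τ ∈ A.inertiaSubgroupIn ℚ, ∀ z ∈ L, τ • z ∈ L)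
    (hB : ∀ τ ∈ A.inertiaSubgroupIn ℚ, ∀ z ∈ B, τ • z ∈ B) (hLB : L ≤ B)
    (hiL : Nat.card L = 1 ∨ Nat.card L = p) (hiB : L.relIndex B = p)
    (htriv : ∀ τ ∈ A.inertiaSubgroupIn ℚ, ∀ x ∈ B, τ • x - x ∈ L)
    (hBU : B ≤ oneUnit hA hpM p) : False := by
  have h := le_of_flag_of_le_oneUnit hA hpM hp2 hL hB hLB hiL (Or.inr hiB) htriv hBU
  have h1 : L.relIndex B = 1 := AddSubgroup.relIndex_eq_one.2 h
  rw [hiB] at h1
  exact hp.out.one_lt.ne' h1

set_option maxHeartbeats 800000 in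
/-- **item (6) in the shape TOP has it**: `E` an abstract group of order `p ^ 2` with an action `act`
of the Galois group (e.g. `E[p]` of the Frey curve), `φ : E →+ J₀(M p)` injective and equivariant for
the inertia group, `LE ≤ E` of order `p` with `(σ - 1) E ≤ LE` for `σ ∈ I` (the `E`-side flag of [G2]).
Then `range φ` is NOT contained in the one-unit classes `U_p` (for `p` odd). -/
theorem false_of_injective_of_le_oneUnit (hp2 : p ≠ 2) {E : Type*} [AddCommGroup E]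
    (act : GQ → E → E) (φ : E →+ JZero (M * p)) (hφ : Function.Injective φ)
    (hequiv : ∀ σ ∈ A.inertiaSubgroupIn ℚ, ∀ v : E, φ (act σ v) = σ • φ v)
    (LE : AddSubgroup E) (hcardE : Nat.card E = p ^ 2) (hcardL : Nat.card LE = p)
    (hLE : ∀ σ ∈ A.inertiaSubgroupIn ℚ, ∀ v : E, act σ v - v ∈ LE)
    (hU : ∀ v : E, φ v ∈ oneUnit hA hpM p) : False := by
  have hstab : ∀ σ ∈ A.inertiaSubgroupIn ℚ, ∀ v ∈ LE, act σ v ∈ LE := fun σ hσ v hv => by
    have h := LE.add_mem (hLE σ hσ v) hv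
    rwa [sub_add_cancel] at h
  refine false_of_flag_of_le_oneUnit hA hpM hp2 (L := LE.map φ) (B := φ.range) ?_ ?_ ?_ ?_ ?_ ?_ ?_
  · rintro τ hτ _ ⟨v, hv, rfl⟩
    exact ⟨act τ v, hstab τ hτ v hv, hequiv τ hτ v⟩
  · rintro τ hτ _ ⟨v, rfl⟩
    exact ⟨act τ v, hequiv τ hτ v⟩
  · rintro _ ⟨v, -, rfl⟩
    exact ⟨v, rfl⟩
  · exact Or.inr ((Nat.card_congr (LE.equivMapOfInjective φ hφ).toEquiv.symm).trans hcardL)
  · rw [AddMonoidHom.range_eq_map, AddSubgroup.relIndex_map_map_of_injective LE ⊤ hφ,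
      AddSubgroup.relIndex_top_right]
    have h1 := LE.card_mul_index
    rw [hcardL, hcardE, pow_two] at h1
    exact Nat.eq_of_mul_eq_mul_left hp.out.pos h1
  · rintro τ hτ _ ⟨v, rfl⟩
    refine ⟨act τ v - v, hLE τ hτ v, ?_⟩
    rw [map_sub, hequiv τ hτ v]
  · rintro _ ⟨v, rfl⟩
    exact hU v

end Fermat.Agent.S44.Fin.Omega
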